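/-
Programme T1B (row 38 / S44), cell R2/BRANDT, work package W4-ASM (helper14): the `ℓ`-clause of the
auxiliary-function package (`hQ`, `hReg` of `Brandt36/MainFin.brandtS_one_of_aux` / `hd_of_aux`)
from the three W4 pieces, ABSTRACT FORM (Prelude `Place` vocabulary only).

`k ⊂ k'` function fields over `κ` with the two degeneracy maps `ᾱ β̄ : k →ₐ[κ] k'`, node places
`vE : ι → Place κ k`, `Reg` = "in the chart" for places of `k`, `NonCusp` for places of `k'`,
the auxiliary function `D ∈ k` and a unit `U ∈ k'` with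
* (a) `β̄ D = ᾱ D · U ^ n`               (`n = p - 1`; `U` = reduction of a modular unit of level `M'ℓ`);
* (b) `ord_w U = 0` at every non-cuspidal place `w` of `k'`;
* (c) the `β̄`-restriction of a non-cuspidal place is in the chart;
* (d) every place of `k'` over a node (via `ᾱ`) is non-cuspidal.
Then for every place `w` over a node: `ord_w (β̄ D) = ord_w (ᾱ D)` and `Reg (β̄^* w)`
(`aux_asm`; `hQ_of_asm`, `hReg_of_asm` in the literal shapes of `Brandt36/MainFin`).
-/
import Mathlib
import Fermat.Prelude.Def_AlgebraicCurve_Correspondence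

set_option autoImplicit false

noncomputable section

namespace Fermat.Agent.T1B.Brandt14

open AlgebraicCurve

variable {κ k k' : Type*} [Field κ] [Field k] [Field k'] [Algebra κ k] [Algebra κ k']

/-- `ord_w (a · U ^ n) = ord_w a` when `ord_w U = 0` and the product is nonzero. -/
theorem ord_mul_pow_of_ord_eq_zero (w : Place κ k') {a U : k'} (n : ℕ) (hU : w.ord U = 0)
    (hne : a * U ^ n ≠ 0) : w.ord (a * U ^ n) = w.ord a := by
  have ha : a ≠ 0 := left_ne_zero_of_mul hne
  have hUn : U ^ n ≠ 0 := right_ne_zero_of_mul hne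
  have h := w.ord_zpow U (n : ℤ)
  rw [zpow_natCast] at h
  rw [w.ord_mul ha hUn, h, hU, mul_zero, add_zero]

section Asm

variable (αb βb : k →ₐ[κ] k') (hα : αb.toRingHom.IsIntegral) (hβ : βb.toRingHom.IsIntegral)
variable {ι : Type*} (vE : ι → Place κ k) (Reg : Place κ k → Prop) (NonCusp : Place κ k' → Prop)
variable (D : k) (U : k') (n : ℕ)

/-- (a) + (b): `ord_w (β̄ D) = ord_w (ᾱ D)` at every place where `ord_w U = 0`. -/
theorem ord_beta_eq_ord_alpha (ha : βb D = αb D * U ^ n) (w : Place κ k') (hU : w.ord U = 0) :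
    w.ord (βb D) = w.ord (αb D) := by
  rcases eq_or_ne D 0 with rfl | hD
  · rw [map_zero, map_zero]
  · have hβD : βb D ≠ 0 := by
      rw [Ne, map_eq_zero_iff βb βb.toRingHom.injective]
      exact hD
    rw [ha] at hβD ⊢
    exact ord_mul_pow_of_ord_eq_zero w n hU hβD

/-- **W4-ASM**: the `ℓ`-clause of the auxiliary package from (a), (b), (c), (d). -/
theorem aux_asm (ha : βb D = αb D * U ^ n)
    (hb : ∀ w : Place κ k', NonCusp w → w.ord U = 0)
    (hc : ∀ w : Place κ k', NonCusp w → Reg (w.restrictAlong βb hβ))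
    (hd : ∀ (w : Place κ k') (e : ι), w.restrictAlong αb hα = vE e → NonCusp w)
    (e : ι) (w : Place κ k') (hw : w.restrictAlong αb hα = vE e) :
    w.ord (βb D) = w.ord (αb D) ∧ Reg (w.restrictAlong βb hβ) :=
  ⟨ord_beta_eq_ord_alpha αb βb D U n ha w (hb w (hd w e hw)), hc w (hd w e hw)⟩

/-- `hQ` of `Brandt36/MainFin.brandtS_one_of_aux`. -/
theorem hQ_of_asm (ha : βb D = αb D * U ^ n)
    (hb : ∀ w : Place κ k', NonCusp w → w.ord U = 0)
    (hd : ∀ (w : Place κ k') (e : ι), w.restrictAlong αb hα = vE e → NonCusp w) :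
    ∀ e, ∀ w : Place κ k', w.restrictAlong αb hα = vE e → w.ord (βb D) = w.ord (αb D) :=
  fun e w hw => ord_beta_eq_ord_alpha αb βb D U n ha w (hb w (hd w e hw))

/-- `hReg` of `Brandt36/MainFin.brandtS_one_of_aux`. -/
theorem hReg_of_asm
    (hc : ∀ w : Place κ k', NonCusp w → Reg (w.restrictAlong βb hβ))
    (hd : ∀ (w : Place κ k') (e : ι), w.restrictAlong αb hα = vE e → NonCusp w) :
    ∀ e, ∀ w : Place κ k', w.restrictAlong αb hα = vE e → Reg (w.restrictAlong βb hβ) :=
  fun e w hw => hc w (hd w e hw)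

/-- (d) from a chart function `t` with `ᾱ t = t'`: if `NonCusp w` means "finitely many functions
`g ∈ G` of `k'` have order `0` at `w`" and each `g ∈ G` is `ᾱ g₀` with `ord_{vE e} g₀ = 0`, then every
place over a node is non-cuspidal.  (`ord_w (ᾱ g₀) = e_w · ord_{ᾱ^* w} g₀`.) -/
theorem nonCusp_of_over_node (G₀ : Set k)
    (hG : ∀ e, ∀ g₀ ∈ G₀, (vE e).ord g₀ = 0)
    (w : Place κ k') (e : ι) (hw : w.restrictAlong αb hα = vE e) :
    ∀ g₀ ∈ G₀, w.ord (αb g₀) = 0 := by
  intro g₀ hg₀
  rw [Place.ord_restrictAlong αb hα w g₀, hw, hG e g₀ hg₀, mul_zero]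

end Asm

end Fermat.Agent.T1B.Brandt14
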