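/-
Programme T1B (row 38 / S44), cell R2/BRANDT, part (b) (helper14): the Gauss ring of the
`q`-expansion at `∞` (vocabulary of `T1B/Hecke3/GaussVal`, `T1B/Hecke16/ResField`) versus the
degeneracy maps, and the easy half of the residue field identification.

`A` a valuation subring of `ℚbar` with residue field `κ`, `O_L = gaussSub A (iotaHom L) ⊂ FF L`:

* `exists_gaussRes_eq` **(L1)** : for `D ∣ L`, every element of `κ(j(q^d) : d ∣ D)` is the residue of an
  element of `O_L`;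
* `alpha_mem_gaussSub`, `gaussRes_alpha` **(L2α)** : `α` maps `O_N` into `O_{Nℓ}` and commutes with the
  residue maps;
* `beta_mem_gaussSub`, `gaussRes_beta` **(L2β)** : `β` maps `O_N` into `O_{Nℓ}` and
  `(β u)‾ = ū(q^ℓ)`.
-/
import Mathlib
import Fermat.Agent.T1B.Hecke16.KerInst
import Fermat.Agent.T1B.Hecke3.DeltaX0

set_option autoImplicit false
set_option linter.unusedSectionVars false

noncomputable section

open HahnSeries ModularCurve IntermediateField

namespace Fermat.Agent.T1B.Brandt14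

open Fermat.Agent.X0 Fermat.Agent.T1B.Hecke3 Fermat.Agent.T1B.Hecke16

variable (A : ValuationSubring Kbar)

/-- constants have constant expansion. -/
theorem iotaHom_algebraMap (L : ℕ) [NeZero L] (c : Kbar) :
    iotaHom L (algebraMap Kbar (FF L) c) = HahnSeries.C c := by
  rw [iotaHom_apply]
  show algebraMap Kbar (LaurentSeries Kbar) c = _
  rw [ModularCurve.algebraMap_laurentSeries_eq_single]
  rfl

/-- the series of `j_d`. -/
theorem coe_jdF_eq' (L d : ℕ) [NeZero L] [NeZero d] (hd : d ∣ L) :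
    ((jdF L d hd : FF L) : LaurentSeries Kbar) = qExpand Kbar d (jqModC Kbar) := by
  rw [Fermat.Agent.X0.FracR.coe_jdF, ← jqK_eq]
  unfold coeffEmb jqK
  rw [ModularCurve.coeffMap_qExpand]
  rfl

/-- `j_d` is Gauss-integral, with residue `j̄(q^d)`. -/
theorem isIntRep_jdF (L d : ℕ) [NeZero L] [NeZero d] (hd : d ∣ L) :
    IsIntRep A (iotaHom L) (jdF L d hd) (qExpand ↥A d (jqModC ↥A)) 1 := by
  refine ⟨by rw [map_one]; exact one_ne_zero, ?_⟩
  rw [map_one, mul_one, iotaHom_apply, coe_jdF_eq', ModularCurve.coeffMap_qExpand,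
    coeffMap_jqModC]

/-- **(L1)** for `D ∣ L`, every element of `κ(j(q^d) : d ∣ D)` is a residue of the Gauss ring at
level `L`. -/
theorem fullC_le_resField (L D : ℕ) [NeZero L] [NeZero D] (hDL : D ∣ L) :
    modularFunctionFieldFullC (Kap A) D ≤
      resField A (iotaHom L) (algebraMap Kbar (FF L)) (iotaHom_algebraMap L) := by
  rw [modularFunctionFieldFullC, adjoin_le_iff]
  rintro x ⟨d, hne, hdD, rfl⟩
  have := hne
  have hd : d ∣ L := hdD.trans hDL
  refine ⟨⟨jdF L d hd, ⟨_, _, isIntRep_jdF A L d hd⟩⟩, ?_⟩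
  rw [gaussRes_eq (f := ⟨jdF L d hd, ⟨_, _, isIntRep_jdF A L d hd⟩⟩) (isIntRep_jdF A L d hd),
    map_one, div_one, ModularCurve.coeffMap_qExpand, coeffMap_jqModC]

theorem exists_gaussRes_eq (L D : ℕ) [NeZero L] [NeZero D] (hDL : D ∣ L)
    {y : LaurentSeries (Kap A)} (hy : y ∈ modularFunctionFieldFullC (Kap A) D) :
    ∃ u : gaussSub A (iotaHom L), gaussRes A (iotaHom L) u = y :=
  fullC_le_resField A L D hDL hy

section Degeneracy

variable (N ℓ : ℕ) [NeZero N] [NeZero ℓ]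

theorem isIntRep_alpha {f : FF N} {a s : LaurentSeries ↥A} (h : IsIntRep A (iotaHom N) f a s) :
    IsIntRep A (iotaHom (N * ℓ)) (heckeAlphaBar Kbar N ℓ f) a s := by
  refine ⟨h.1, ?_⟩
  rw [iotaHom_apply, coe_heckeAlphaBar]
  exact h.2

theorem isIntRep_beta {f : FF N} {a s : LaurentSeries ↥A} (h : IsIntRep A (iotaHom N) f a s) :
    IsIntRep A (iotaHom (N * ℓ)) (heckeBetaBar Kbar N ℓ f) (qExpand ↥A ℓ a) (qExpand ↥A ℓ s) := by
  refine ⟨?_, ?_⟩
  · rw [ModularCurve.coeffMap_qExpand]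
    intro h0
    apply h.1
    exact qExpand_injective ℓ (by rw [h0, map_zero])
  · rw [iotaHom_apply, coe_heckeBetaBar, ModularCurve.coeffMap_qExpand,
      ModularCurve.coeffMap_qExpand, ← map_mul]
    congr 1
    exact h.2

/-- **(L2α)** `α` preserves the Gauss rings. -/
theorem alpha_mem_gaussSub {f : FF N} (hf : f ∈ gaussSub A (iotaHom N)) :
    heckeAlphaBar Kbar N ℓ f ∈ gaussSub A (iotaHom (N * ℓ)) := by
  obtain ⟨a, s, h⟩ := hf
  exact ⟨a, s, isIntRep_alpha A N ℓ h⟩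

/-- **(L2β)** `β` preserves the Gauss rings. -/
theorem beta_mem_gaussSub {f : FF N} (hf : f ∈ gaussSub A (iotaHom N)) :
    heckeBetaBar Kbar N ℓ f ∈ gaussSub A (iotaHom (N * ℓ)) := by
  obtain ⟨a, s, h⟩ := hf
  exact ⟨_, _, isIntRep_beta A N ℓ h⟩

/-- **(L2α)** `α` commutes with the residue maps. -/
theorem gaussRes_alpha (u : gaussSub A (iotaHom N)) :
    gaussRes A (iotaHom (N * ℓ)) ⟨heckeAlphaBar Kbar N ℓ (u : FF N), alpha_mem_gaussSub A N ℓ u.2⟩ =
      gaussRes A (iotaHom N) u := by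
  obtain ⟨a, s, h⟩ := u.2
  rw [gaussRes_eq (f := ⟨heckeAlphaBar Kbar N ℓ (u : FF N), alpha_mem_gaussSub A N ℓ u.2⟩)
    (isIntRep_alpha A N ℓ h), gaussRes_eq h]

/-- **(L2β)** `(β u)‾ = ū(q^ℓ)`. -/
theorem gaussRes_beta (u : gaussSub A (iotaHom N)) :
    gaussRes A (iotaHom (N * ℓ)) ⟨heckeBetaBar Kbar N ℓ (u : FF N), beta_mem_gaussSub A N ℓ u.2⟩ =
      qExpand (Kap A) ℓ (gaussRes A (iotaHom N) u) := by
  obtain ⟨a, s, h⟩ := u.2
  rw [gaussRes_eq (f := ⟨heckeBetaBar Kbar N ℓ (u : FF N), beta_mem_gaussSub A N ℓ u.2⟩)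
    (isIntRep_beta A N ℓ h), gaussRes_eq h, ModularCurve.coeffMap_qExpand,
    ModularCurve.coeffMap_qExpand, map_div₀]

end Degeneracy

end Fermat.Agent.T1B.Brandt14
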