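/-
Programme T1B (row 38 / S44), cell R2/BRANDT, part (b) (helper14): REDUCTION COMMUTES WITH THE NORM
(abstract part, Mathlib only).

`F ⊂ F'` a finite field extension of degree `n`, `O` a valuation subring of `F` (NOT necessarily
discrete), `O' ⊂ F'` a subring containing `O`, with "residue maps" `r : O → k` (killing the non-units)
and `r' : O' → Ω` compatible with a field extension `k ⊂ k'` of the SAME degree `n` and an embedding
`j : k' → Ω`.  If `n` elements `u i ∈ O'` have residues `r' (u i) = j (ū i)` with `ū` linearly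
independent over `k`, then
* `u` is an `F`-basis of `F'` and an `O`-basis of `O'` (`linearIndependent_of_residue`,
  `repr_mem`);
* every residue `r' x`, `x ∈ O'`, lies in `j k'` (`exists_residue`);
* **`N_{F'/F}(x) ∈ O` and `r (N_{F'/F} x) = N_{k'/k}(z)` for `r' x = j z`** (`norm_reduction`).
No discreteness, completeness or separability is used: this is `e = 1`, `f = n` (the valuation of
`O'` is the unique extension of that of `O`, unramified and defectless).
-/
import Mathlib

set_option autoImplicit false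

noncomputable section

namespace Fermat.Agent.T1B.Brandt14

open Module

section NormRed

variable {F F' : Type*} [Field F] [Field F'] [Algebra F F']
variable {k k' Ω : Type*} [Field k] [Field k'] [Algebra k k'] [Field Ω]
variable (O : ValuationSubring F) (O' : Subring F')
variable (hOO' : ∀ c ∈ O, algebraMap F F' c ∈ O')

/-- the inclusion `O → O'`. -/
def inclO : ↥O →+* ↥O' where
  toFun c := ⟨algebraMap F F' (c : F), hOO' _ c.2⟩
  map_one' := Subtype.ext (by simp)
  map_mul' a b := Subtype.ext (by simp)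
  map_zero' := Subtype.ext (by simp)
  map_add' a b := Subtype.ext (by simp)

@[simp] theorem coe_inclO (c : ↥O) : ((inclO O O' hOO' c : ↥O') : F') = algebraMap F F' (c : F) :=
  rfl

/-- among finitely many elements of `F`, not all zero, one divides all the others in `O`. -/
theorem exists_scaling {n : ℕ} (g : Fin n → F) {i₀ : Fin n} (h₀ : g i₀ ≠ 0) :
    ∃ j₀ : Fin n, g j₀ ≠ 0 ∧ ∀ i, g i / g j₀ ∈ O := by
  obtain ⟨j₀, -, hmax⟩ := Finset.exists_max_image Finset.univ (fun i => O.valuation (g i))
    ⟨i₀, Finset.mem_univ _⟩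
  have hpos : 0 < O.valuation (g j₀) := by
    refine lt_of_lt_of_le ?_ (hmax i₀ (Finset.mem_univ _))
    rw [zero_lt_iff]
    exact (Valuation.ne_zero_iff _).2 h₀
  have hj₀ : g j₀ ≠ 0 := by
    intro h
    rw [h, map_zero] at hpos
    exact lt_irrefl _ hpos
  refine ⟨j₀, hj₀, fun i => ?_⟩
  rw [← O.valuation_le_one_iff, map_div₀, div_le_one₀ hpos]
  exact hmax i (Finset.mem_univ _)

/-- an element of `F` outside `O` is the inverse of a non-unit of `O`. -/
theorem exists_nonunit_inv {c : F} (hc : c ∉ O) :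
    ∃ m : ↥O, (m : F) = c⁻¹ ∧ ¬ IsUnit m := by
  have hinv : c⁻¹ ∈ O := (O.mem_or_inv_mem c).resolve_left hc
  refine ⟨⟨c⁻¹, hinv⟩, rfl, ?_⟩
  rintro ⟨w, hw⟩
  apply hc
  have h1 : ((w⁻¹ : (↥O)ˣ) : ↥O) * ⟨c⁻¹, hinv⟩ = 1 := by
    rw [← hw]
    exact w.inv_mul
  have h2 : (((w⁻¹ : (↥O)ˣ) : ↥O) : F) * c⁻¹ = 1 := by
    have := congrArg (fun a : ↥O => (a : F)) h1
    simpa using this
  have hc0 : c ≠ 0 := by
    rintro rfl
    exact hc O.zero_mem
  have h3 : (((w⁻¹ : (↥O)ˣ) : ↥O) : F) = c := by
    field_simp at h2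
    exact h2
  rw [← h3]
  exact ((w⁻¹ : (↥O)ˣ) : ↥O).2

variable (r : ↥O →+* k) (hr : ∀ c : ↥O, ¬ IsUnit c → r c = 0)
variable (r' : ↥O' →+* Ω) (j : k' →+* Ω)
variable (hrr' : ∀ c : ↥O, r' (inclO O O' hOO' c) = j (algebraMap k k' (r c)))
variable {n : ℕ} (u : Fin n → ↥O') (ū : Fin n → k') (hu : ∀ i, r' (u i) = j (ū i))
variable (hli : LinearIndependent k ū)

/-- the `O`-linear combination `∑ dᵢ uᵢ ∈ O'`. -/
def combO (d : Fin n → ↥O) : ↥O' := ∑ i, inclO O O' hOO' (d i) * u i

theorem coe_combO (d : Fin n → ↥O) :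
    ((combO O O' hOO' u d : ↥O') : F') = ∑ i, ((d i : ↥O) : F) • ((u i : ↥O') : F') := by
  unfold combO
  show O'.subtype (∑ i, inclO O O' hOO' (d i) * u i) = _
  rw [map_sum]
  refine Finset.sum_congr rfl fun i _ => ?_
  show ((inclO O O' hOO' (d i) * u i : ↥O') : F') = _
  rw [Subring.coe_mul, coe_inclO, Algebra.smul_def]

include hrr' hu in
theorem r'_combO (d : Fin n → ↥O) :
    r' (combO O O' hOO' u d) = j (∑ i, r (d i) • ū i) := by
  unfold combO
  rw [map_sum, map_sum]
  refine Finset.sum_congr rfl fun i _ => ?_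
  rw [map_mul, hrr', hu, Algebra.smul_def, map_mul]

include hrr' hu hli in
/-- a combination with one coefficient `1` has nonzero residue. -/
theorem r'_combO_ne_zero (d : Fin n → ↥O) {j₀ : Fin n} (hd : d j₀ = 1) :
    r' (combO O O' hOO' u d) ≠ 0 := by
  rw [r'_combO O O' hOO' r r' j hrr' u ū hu d]
  intro h0
  have h1 : ∑ i, r (d i) • ū i = 0 := j.injective (by rw [h0, map_zero])
  have h2 := (Fintype.linearIndependent_iff.1 hli) (fun i => r (d i)) h1 j₀
  rw [hd, map_one] at h2
  exact one_ne_zero h2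

include hrr' hu hli in
/-- **the lifts are linearly independent over `F`.** -/
theorem linearIndependent_of_residue :
    LinearIndependent F (fun i => ((u i : ↥O') : F')) := by
  rw [Fintype.linearIndependent_iff]
  intro g hg
  by_contra hcon
  push Not at hcon
  obtain ⟨i₀, hi₀⟩ := hcon
  obtain ⟨j₀, hj₀, hdiv⟩ := exists_scaling O g hi₀
  set d : Fin n → ↥O := fun i => ⟨g i / g j₀, hdiv i⟩ with hd
  have hd1 : d j₀ = 1 := Subtype.ext (div_self hj₀)
  apply r'_combO_ne_zero O O' hOO' r r' j hrr' u ū hu hli d hd1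
  have hz : combO O O' hOO' u d = 0 := by
    apply Subtype.ext
    rw [coe_combO]
    show ∑ i, (g i / g j₀) • ((u i : ↥O') : F') = 0
    have : ∑ i, (g i / g j₀) • ((u i : ↥O') : F') = (g j₀)⁻¹ • ∑ i, g i • ((u i : ↥O') : F') := by
      rw [Finset.smul_sum]
      refine Finset.sum_congr rfl fun i _ => ?_
      rw [smul_smul, div_eq_inv_mul]
    rw [this, hg, smul_zero]
  rw [hz, map_zero]

variable [NeZero n] (hn : finrank F F' = n)

/-- the lifts as an `F`-basis of `F'`. -/
def basisU (hliF : LinearIndependent F (fun i => ((u i : ↥O') : F'))) : Basis (Fin n) F F' :=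
  basisOfLinearIndependentOfCardEqFinrank hliF (by rw [Fintype.card_fin, hn])

theorem basisU_apply (hliF : LinearIndependent F (fun i => ((u i : ↥O') : F'))) (i : Fin n) :
    basisU O' u hn hliF i = ((u i : ↥O') : F') := by
  unfold basisU
  rw [coe_basisOfLinearIndependentOfCardEqFinrank]

include hr hrr' hu hli in
/-- **the lifts are an `O`-basis of `O'`**: the coordinates of an element of `O'` lie in `O`. -/
theorem repr_mem (hliF : LinearIndependent F (fun i => ((u i : ↥O') : F'))) (y : ↥O')
    (i : Fin n) : (basisU O' u hn hliF).repr (y : F') i ∈ O := by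
  set b := basisU O' u hn hliF with hb
  set g : Fin n → F := fun i => b.repr (y : F') i with hg
  by_contra hcon
  have hi0 : g i ≠ 0 := by
    intro h0
    apply hcon
    show g i ∈ O
    rw [h0]
    exact O.zero_mem
  obtain ⟨j₀, hj₀, hdiv⟩ := exists_scaling O g hi0
  have hj₀O : g j₀ ∉ O := by
    intro hmem
    apply hcon
    show g i ∈ O
    have : g i = g i / g j₀ * g j₀ := by field_simp
    rw [this]
    exact O.mul_mem _ _ (hdiv i) hmem
  obtain ⟨m, hm, hmu⟩ := exists_nonunit_inv O hj₀O
  set d : Fin n → ↥O := fun i => ⟨g i / g j₀, hdiv i⟩ with hd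
  have hd1 : d j₀ = 1 := Subtype.ext (div_self hj₀)
  apply r'_combO_ne_zero O O' hOO' r r' j hrr' u ū hu hli d hd1
  have hy : (y : F') = ∑ i, g i • ((u i : ↥O') : F') := by
    conv_lhs => rw [← b.sum_repr (y : F')]
    refine Finset.sum_congr rfl fun i _ => ?_
    rw [hb, basisU_apply]
  have hz : combO O O' hOO' u d = inclO O O' hOO' m * y := by
    apply Subtype.ext
    rw [coe_combO, Subring.coe_mul, coe_inclO, hm, ← Algebra.smul_def, hy, Finset.smul_sum]
    refine Finset.sum_congr rfl fun i _ => ?_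
    show (g i / g j₀) • ((u i : ↥O') : F') = _
    rw [smul_smul, div_eq_inv_mul]
  rw [hz, map_mul, hrr', hr m hmu, map_zero, map_zero, zero_mul]

/-- the coordinates of `y ∈ O'`, as elements of `O`. -/
def coordO (hliF : LinearIndependent F (fun i => ((u i : ↥O') : F')))
    (hmem : ∀ (y : ↥O') (i : Fin n), (basisU O' u hn hliF).repr (y : F') i ∈ O)
    (y : ↥O') (i : Fin n) : ↥O :=
  ⟨(basisU O' u hn hliF).repr (y : F') i, hmem y i⟩

theorem combO_coordO (hliF : LinearIndependent F (fun i => ((u i : ↥O') : F')))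
    (hmem : ∀ (y : ↥O') (i : Fin n), (basisU O' u hn hliF).repr (y : F') i ∈ O) (y : ↥O') :
    combO O O' hOO' u (coordO O O' u hn hliF hmem y) = y := by
  apply Subtype.ext
  rw [coe_combO]
  conv_rhs => rw [← (basisU O' u hn hliF).sum_repr (y : F')]
  refine Finset.sum_congr rfl fun i _ => ?_
  rw [basisU_apply]
  rfl

variable (hn' : finrank k k' = n)

include hr hrr' hu hli hn in
/-- **every residue of `O'` lies in `j k'`.** -/
theorem exists_residue (y : ↥O') : ∃ z : k', r' y = j z := by
  have hliF := linearIndependent_of_residue O O' hOO' r r' j hrr' u ū hu hli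
  have hmem := repr_mem O O' hOO' r hr r' j hrr' u ū hu hli hn hliF
  refine ⟨∑ i, r (coordO O O' u hn hliF hmem y i) • ū i, ?_⟩
  rw [← r'_combO O O' hOO' r r' j hrr' u ū hu, combO_coordO]

include hr hrr' hu hli hn hn' in
/-- **Reduction commutes with the norm.**  For `x ∈ O'` with residue `r' x = j z`:
`N_{F'/F}(x) ∈ O` and `r (N_{F'/F} x) = N_{k'/k}(z)`. -/
theorem norm_reduction (x : ↥O') (z : k') (hz : r' x = j z) :
    ∃ h : Algebra.norm F (x : F') ∈ O, r ⟨_, h⟩ = Algebra.norm k z := by
  have hliF := linearIndependent_of_residue O O' hOO' r r' j hrr' u ū hu hli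
  have hmem := repr_mem O O' hOO' r hr r' j hrr' u ū hu hli hn hliF
  set b := basisU O' u hn hliF with hb
  set bk : Basis (Fin n) k k' :=
    basisOfLinearIndependentOfCardEqFinrank hli (by rw [Fintype.card_fin, hn']) with hbk
  have hbki : ∀ i, bk i = ū i := fun i => by
    rw [hbk, coe_basisOfLinearIndependentOfCardEqFinrank]
  -- the matrix of multiplication by `x`, over `O`
  set M : Matrix (Fin n) (Fin n) ↥O := fun i jj => coordO O O' u hn hliF hmem (x * u jj) i with hM
  have hMF : Algebra.leftMulMatrix b (x : F') = M.map O.subtype := by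
    ext i jj
    rw [Algebra.leftMulMatrix_eq_repr_mul, Matrix.map_apply, hb, basisU_apply]
    rfl
  have hMk : Algebra.leftMulMatrix bk z = M.map r := by
    ext i jj
    rw [Algebra.leftMulMatrix_eq_repr_mul, Matrix.map_apply, hbki]
    have h1 : z * ū jj = ∑ i, r (M i jj) • bk i := by
      apply j.injective
      rw [map_mul, ← hz, ← hu, ← map_mul]
      conv_lhs => rw [← combO_coordO O O' hOO' u hn hliF hmem (x * u jj)]
      rw [r'_combO O O' hOO' r r' j hrr' u ū hu]
      congr 1
      refine Finset.sum_congr rfl fun i _ => ?_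
      rw [hbki]
    rw [h1, bk.repr_sum_self]
  have hdetF : Algebra.norm F (x : F') = O.subtype M.det := by
    rw [Algebra.norm_eq_matrix_det b, hMF, RingHom.map_det]
    rfl
  refine ⟨by rw [hdetF]; exact (M.det).2, ?_⟩
  have : (⟨Algebra.norm F (x : F'), by rw [hdetF]; exact (M.det).2⟩ : ↥O) = M.det :=
    Subtype.ext hdetF
  rw [this, Algebra.norm_eq_matrix_det bk, hMk, RingHom.map_det]
  rfl

end NormRed

end Fermat.Agent.T1B.Brandt14
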