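/-
Programme T1B (row 38 / S44), cell R2/BRANDT, part (b) (helper14): REDUCTION COMMUTES WITH THE NORM
for the degeneracy map `α : FF N → FF (N ℓ)` and the Gauss valuation of the `q`-expansion at `∞`.

`A` a valuation subring of `ℚbar`, `κ = Kap A` its residue field, `O_L = gaussSub A (iotaHom L)`,
`ℓ ∤ N` a prime.

ABSTRACT FORM (`norm_package_abs`, `gaussRes_norm_abs`): `k ⊂ k'` ANY field extension of degree
`ℓ + 1` with embeddings `jk : k → κ((q))`, `jk' : k' → κ((q))` (compatible), such that every residue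
of `O_N` lies in `jk k` and every element of `jk' k'` is a residue of `O_{Nℓ}`.  Then every residue of
`O_{Nℓ}` lies in `jk' k'`, `N_α x ∈ O_N` for `x ∈ O_{Nℓ}`, and `(N_α x)‾ = jk (N_{k'/k} z)` for
`x̄ = jk' z`.

CONCRETE FORM: `M' ∣ N`, the ONE hypothesis
    `hRF1 : ∀ u ∈ O_N, ū ∈ κ(j(q^d) : d ∣ M') = modularFunctionFieldFullC κ M'`
(RESFIELD-ID at level `N = M' p`: `Hecke16/ResFieldX0.gaussRes_mem_fullC_four`), and the degeneracy
maps in characteristic `p` as parameters `ᾱ β̄ : F_{M'} →ₐ[κ] F_{M'ℓ}` with `ᾱ x = x`,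
`β̄ x = x(q^ℓ)` as series and `[F_{M'ℓ} : ᾱ F_{M'}] = ℓ + 1` (instances: `Hecke87/CharPX0.alphaC/betaC`
= `Brandt27/DegreeC.alphaC/betaC` = `Brandt14/DegreeC.alphaC/betaC`; see `NormRedFullC.lean`).  Then:

* `gaussRes_mem_fullC_mul`     : `∀ x ∈ O_{Nℓ}, x̄ ∈ modularFunctionFieldFullC κ (M' ℓ)`
                                 (RESFIELD-ID at level `N ℓ`, for free);
* `gaussRes_normAlong_alpha`   : `∀ x ∈ O_{Nℓ}`, `N_α x ∈ O_N` and `(N_α x)‾ = N_ᾱ (x̄)`;
* `gaussRes_normAlong_alpha_beta` : `∀ u ∈ O_N`, `N_α (β u) ∈ O_N` and `(N_α (β u))‾ = N_ᾱ (β̄ ū)`;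
* `resO_normAlong_alpha_beta`  : the same for `V = gaussO A N : ValuationSubring (FF N)` and
                                 `res = resO : V →+* F_{M'}` (the `hb` of `Brandt36/Main`).
-/
import Mathlib
import Fermat.Agent.T1B.Brandt14.NormRed
import Fermat.Agent.T1B.Brandt14.GaussLift
import Fermat.Agent.T1B.Gauss95.Main
import Fermat.Agent.ES.HECKE.AlongDegree25
import Fermat.Agent.ES.HECKE.PointFormula28

set_option autoImplicit false
set_option linter.unusedSectionVars false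
set_option linter.style.haveILetI false

noncomputable section

open HahnSeries ModularCurve IntermediateField AlgebraicCurve

namespace Fermat.Agent.T1B.Brandt14

open Fermat.Agent.X0 Fermat.Agent.T1B.Hecke3 Fermat.Agent.T1B.Hecke16
open Fermat.Agent.ES.HECKE Fermat.Agent.ES.HECKE.PointFormula28

/-- a ring hom whose values lie in the image of an injective ring hom factors through it. -/
theorem exists_ringHom_factor {R k Ω : Type*} [Semiring R] [Semiring k] [Semiring Ω]
    (g : R →+* Ω) (jk : k →+* Ω) (hinj : Function.Injective jk) (h : ∀ c, ∃ y, jk y = g c) :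
    ∃ r : R →+* k, ∀ c, jk (r c) = g c := by
  choose f hf using h
  refine ⟨{ toFun := f, map_one' := ?_, map_mul' := ?_, map_zero' := ?_, map_add' := ?_ }, hf⟩
  · apply hinj
    rw [hf, map_one, map_one]
  · intro a b
    apply hinj
    rw [hf, map_mul, map_mul, hf, hf]
  · apply hinj
    rw [hf, map_zero, map_zero]
  · intro a b
    apply hinj
    rw [hf, map_add, map_add, hf, hf]

variable (A : ValuationSubring Kbar) (N : ℕ) [NeZero N]

/-- the Gauss valuation ring of `FF N` (expansion at `∞`). -/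
def gaussO : ValuationSubring (FF N) :=
  gaussVal A (iotaHom N) (fun f hf => Fermat.Agent.T1B.Gauss95.normalisable_coe A N f hf)

theorem mem_gaussO_iff (f : FF N) : f ∈ gaussO A N ↔ f ∈ gaussSub A (iotaHom N) := Iff.rfl

/-- elements of `gaussO` as elements of `gaussSub`. -/
def toSub : ↥(gaussO A N) →+* gaussSub A (iotaHom N) where
  toFun c := ⟨(c : FF N), c.2⟩
  map_one' := rfl
  map_mul' _ _ := rfl
  map_zero' := rfl
  map_add' _ _ := rfl

@[simp] theorem coe_toSub (c : ↥(gaussO A N)) : ((toSub A N c : gaussSub A (iotaHom N)) : FF N) = c :=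
  rfl

/-- a non-unit of the Gauss valuation ring has zero residue. -/
theorem gaussRes_eq_zero_of_not_isUnit (c : ↥(gaussO A N)) (hc : ¬ IsUnit c) :
    gaussRes A (iotaHom N) (toSub A N c) = 0 := by
  by_contra hne
  apply hc
  have hinv := inv_mem_gaussSub hne
  have hc0 : (c : FF N) ≠ 0 := by
    intro h0
    apply hne
    have : toSub A N c = 0 := Subtype.ext h0
    rw [this, map_zero]
  refine ⟨⟨c, ⟨((c : FF N))⁻¹, hinv⟩, ?_, ?_⟩, rfl⟩
  · exact Subtype.ext (mul_inv_cancel₀ hc0)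
  · exact Subtype.ext (inv_mul_cancel₀ hc0)

/-! ### Abstract form -/

section Abstract

variable (ℓ : ℕ) [NeZero ℓ] (hℓ : ℓ.Prime) (hℓN : ¬ ℓ ∣ N)
variable {k k' : Type*} [Field k] [Field k'] [Algebra k k']
variable (jk : k →+* LaurentSeries (Kap A)) (jk' : k' →+* LaurentSeries (Kap A))
variable (hjk : ∀ y : k, jk' (algebraMap k k' y) = jk y)
variable (hRF1 : ∀ u : gaussSub A (iotaHom N), ∃ y : k, jk y = gaussRes A (iotaHom N) u)
variable (hlift : ∀ z : k', ∃ u : gaussSub A (iotaHom (N * ℓ)),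
  gaussRes A (iotaHom (N * ℓ)) u = jk' z)
variable (hdeg : Module.finrank k k' = ℓ + 1)

include hℓ hℓN hjk hRF1 hlift hdeg in
/-- **Reduction commutes with the norm along `α`, abstract residue fields.** -/
theorem norm_package_abs (x : gaussSub A (iotaHom (N * ℓ))) :
    ∃ z : k', jk' z = gaussRes A (iotaHom (N * ℓ)) x ∧
      ∃ h : normAlong (heckeAlphaBar Kbar N ℓ) (x : FF (N * ℓ)) ∈ gaussSub A (iotaHom N),
        gaussRes A (iotaHom N) ⟨_, h⟩ = jk (Algebra.norm k z) := by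
  letI algF : Algebra (FF N) (FF (N * ℓ)) := algebraAlong (heckeAlphaBar Kbar N ℓ)
  have hn : Module.finrank (FF N) (FF (N * ℓ)) = ℓ + 1 :=
    AlongDegree25.finrankAlong_alpha Kbar N ℓ hℓ hℓN
  haveI hfin' : Module.Finite k k' :=
    Module.finite_of_finrank_pos (by rw [hdeg]; exact Nat.succ_pos ℓ)
  -- the residue map `r : O_N → k`
  obtain ⟨r, hr⟩ := exists_ringHom_factor ((gaussRes A (iotaHom N)).comp (toSub A N)) jk
    jk.injective (fun c => hRF1 (toSub A N c))
  have hr' : ∀ c : ↥(gaussO A N), jk (r c) = gaussRes A (iotaHom N) (toSub A N c) := hr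
  have hrunit : ∀ c : ↥(gaussO A N), ¬ IsUnit c → r c = 0 := by
    intro c hc
    apply jk.injective
    rw [hr', gaussRes_eq_zero_of_not_isUnit A N c hc, map_zero]
  -- a basis of `k'` over `k` and lifts
  let bk := Module.finBasisOfFinrankEq k k' hdeg
  choose u hu using fun i : Fin (ℓ + 1) => hlift (bk i)
  have hOO' : ∀ c ∈ gaussO A N, algebraMap (FF N) (FF (N * ℓ)) c ∈ gaussSub A (iotaHom (N * ℓ)) :=
    fun c hc => alpha_mem_gaussSub A N ℓ hc
  have hrr' : ∀ c : ↥(gaussO A N),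
      gaussRes A (iotaHom (N * ℓ)) (inclO (gaussO A N) (gaussSub A (iotaHom (N * ℓ))) hOO' c) =
        jk' (algebraMap k k' (r c)) := by
    intro c
    rw [hjk, hr']
    exact gaussRes_alpha A N ℓ (toSub A N c)
  obtain ⟨z, hz⟩ := exists_residue (gaussO A N) (gaussSub A (iotaHom (N * ℓ))) hOO'
    r hrunit (gaussRes A (iotaHom (N * ℓ))) jk' hrr' u (fun i => bk i) hu
    bk.linearIndependent hn x
  obtain ⟨h, hnorm⟩ := norm_reduction (gaussO A N) (gaussSub A (iotaHom (N * ℓ))) hOO'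
    r hrunit (gaussRes A (iotaHom (N * ℓ))) jk' hrr' u (fun i => bk i) hu
    bk.linearIndependent hn hdeg x z hz
  refine ⟨z, hz.symm, h, ?_⟩
  rw [← hnorm, hr']
  rfl

end Abstract

/-! ### Concrete form: residue fields `κ(j(q^d) : d ∣ M')` -/

/-- shortcut instance (the term found by instance resolution, which is slow for the residue field
`Kap A = ↥A ⧸ 𝔪`). -/
local instance (priority := 5000) algKapFullC (M : ℕ) :
    Algebra (Kap A) ↥(modularFunctionFieldFullC (Kap A) M) :=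
  SubalgebraClass.toAlgebra (modularFunctionFieldFullC (Kap A) M)

section Main

variable (M' ℓ : ℕ) [NeZero M'] [NeZero ℓ] (hM'N : M' ∣ N)
variable (hℓ : ℓ.Prime) (hℓN : ¬ ℓ ∣ N)
variable (hRF1 : ∀ u : gaussSub A (iotaHom N),
  gaussRes A (iotaHom N) u ∈ modularFunctionFieldFullC (Kap A) M')
variable (αb βb : ↥(modularFunctionFieldFullC (Kap A) M') →ₐ[Kap A]
  ↥(modularFunctionFieldFullC (Kap A) (M' * ℓ)))
variable (hαb : ∀ x : ↥(modularFunctionFieldFullC (Kap A) M'),
  ((αb x : ↥(modularFunctionFieldFullC (Kap A) (M' * ℓ))) : LaurentSeries (Kap A)) =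
    (x : LaurentSeries (Kap A)))
variable (hβb : ∀ x : ↥(modularFunctionFieldFullC (Kap A) M'),
  ((βb x : ↥(modularFunctionFieldFullC (Kap A) (M' * ℓ))) : LaurentSeries (Kap A)) =
    qExpand (Kap A) ℓ (x : LaurentSeries (Kap A)))
variable (hdeg : finrankAlong (Kap A) αb = ℓ + 1)

/-- the residue map `O_N → k₁ = κ(j(q^d) : d ∣ M')`. -/
def resO : ↥(gaussO A N) →+* ↥(modularFunctionFieldFullC (Kap A) M') where
  toFun c := ⟨gaussRes A (iotaHom N) (toSub A N c), hRF1 _⟩
  map_one' := Subtype.ext (map_one (gaussRes A (iotaHom N)))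
  map_mul' a b := Subtype.ext (map_mul (gaussRes A (iotaHom N)) (toSub A N a) (toSub A N b))
  map_zero' := Subtype.ext (map_zero (gaussRes A (iotaHom N)))
  map_add' a b := Subtype.ext (map_add (gaussRes A (iotaHom N)) (toSub A N a) (toSub A N b))

theorem coe_resO (c : ↥(gaussO A N)) :
    ((resO A N M' hRF1 c : ↥(modularFunctionFieldFullC (Kap A) M')) : LaurentSeries (Kap A)) =
      gaussRes A (iotaHom N) (toSub A N c) := rfl

include hM'N hℓ hℓN hRF1 hαb hdeg in
/-- the package: residues at level `N ℓ` lie in `F_{M'ℓ}` and reduction commutes with the norm. -/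
theorem norm_package (x : gaussSub A (iotaHom (N * ℓ))) :
    ∃ hx : gaussRes A (iotaHom (N * ℓ)) x ∈ modularFunctionFieldFullC (Kap A) (M' * ℓ),
    ∃ h : normAlong (heckeAlphaBar Kbar N ℓ) (x : FF (N * ℓ)) ∈ gaussSub A (iotaHom N),
      gaussRes A (iotaHom N) ⟨_, h⟩ =
        ((normAlong αb
          (⟨gaussRes A (iotaHom (N * ℓ)) x, hx⟩ : ↥(modularFunctionFieldFullC (Kap A) (M' * ℓ))) :
            ↥(modularFunctionFieldFullC (Kap A) M')) : LaurentSeries (Kap A)) := by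
  letI algk : Algebra ↥(modularFunctionFieldFullC (Kap A) M')
      ↥(modularFunctionFieldFullC (Kap A) (M' * ℓ)) := algebraAlong αb
  have hDL : M' * ℓ ∣ N * ℓ := Nat.mul_dvd_mul_right hM'N ℓ
  obtain ⟨z, hz, h, hnorm⟩ := norm_package_abs A N ℓ hℓ hℓN
    (k := ↥(modularFunctionFieldFullC (Kap A) M'))
    (k' := ↥(modularFunctionFieldFullC (Kap A) (M' * ℓ)))
    (modularFunctionFieldFullC (Kap A) M').val.toRingHom
    (modularFunctionFieldFullC (Kap A) (M' * ℓ)).val.toRingHom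
    (fun y => hαb y) (fun u => ⟨⟨_, hRF1 u⟩, rfl⟩)
    (fun z => exists_gaussRes_eq A (N * ℓ) (M' * ℓ) hDL z.2) hdeg x
  have hx : gaussRes A (iotaHom (N * ℓ)) x ∈ modularFunctionFieldFullC (Kap A) (M' * ℓ) := by
    rw [← hz]
    exact z.2
  have hz' : z = ⟨gaussRes A (iotaHom (N * ℓ)) x, hx⟩ := Subtype.ext hz
  refine ⟨hx, h, ?_⟩
  rw [hnorm, hz']
  rfl

include hM'N hℓ hℓN hRF1 hαb hdeg in
/-- **RESFIELD-ID at level `N ℓ`** (for free): residues at level `N ℓ` lie in `F_{M'ℓ}`. -/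
theorem gaussRes_mem_fullC_mul (x : gaussSub A (iotaHom (N * ℓ))) :
    gaussRes A (iotaHom (N * ℓ)) x ∈ modularFunctionFieldFullC (Kap A) (M' * ℓ) :=
  (norm_package A N M' ℓ hM'N hℓ hℓN hRF1 αb hαb hdeg x).1

include hM'N hℓ hℓN hRF1 hαb hdeg in
/-- **Reduction commutes with the norm along `α`.** -/
theorem gaussRes_normAlong_alpha (x : gaussSub A (iotaHom (N * ℓ))) :
    ∃ h : normAlong (heckeAlphaBar Kbar N ℓ) (x : FF (N * ℓ)) ∈ gaussSub A (iotaHom N),
      gaussRes A (iotaHom N) ⟨_, h⟩ =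
        ((normAlong αb
          (⟨gaussRes A (iotaHom (N * ℓ)) x,
            gaussRes_mem_fullC_mul A N M' ℓ hM'N hℓ hℓN hRF1 αb hαb hdeg x⟩ :
              ↥(modularFunctionFieldFullC (Kap A) (M' * ℓ))) :
            ↥(modularFunctionFieldFullC (Kap A) M')) : LaurentSeries (Kap A)) :=
  (norm_package A N M' ℓ hM'N hℓ hℓN hRF1 αb hαb hdeg x).2

include hM'N hℓ hℓN hRF1 hαb hβb hdeg in
/-- **(b) of (R2): `(N_α (β u))‾ = N_ᾱ (β̄ ū)`** for every `u` in the Gauss ring of level `N`. -/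
theorem gaussRes_normAlong_alpha_beta (u : gaussSub A (iotaHom N)) :
    ∃ h : normAlong (heckeAlphaBar Kbar N ℓ) (heckeBetaBar Kbar N ℓ (u : FF N)) ∈
        gaussSub A (iotaHom N),
      gaussRes A (iotaHom N) ⟨_, h⟩ =
        ((normAlong αb (βb ⟨gaussRes A (iotaHom N) u, hRF1 u⟩) :
            ↥(modularFunctionFieldFullC (Kap A) M')) : LaurentSeries (Kap A)) := by
  obtain ⟨h, hnorm⟩ := gaussRes_normAlong_alpha A N M' ℓ hM'N hℓ hℓN hRF1 αb hαb hdeg
    ⟨heckeBetaBar Kbar N ℓ (u : FF N), beta_mem_gaussSub A N ℓ u.2⟩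
  refine ⟨h, ?_⟩
  rw [hnorm]
  congr 2
  apply Subtype.ext
  show gaussRes A (iotaHom (N * ℓ)) ⟨heckeBetaBar Kbar N ℓ (u : FF N), _⟩ = _
  rw [gaussRes_beta A N ℓ u, hβb]

include hM'N hℓ hℓN hαb hβb hdeg in
/-- the same in the vocabulary `V = gaussO A N` (valuation ring), `res = resO` of
`Brandt36/Main.rho_correspondence` (hypothesis `hb`). -/
theorem resO_normAlong_alpha_beta (u : ↥(gaussO A N)) :
    ∃ h : normAlong (heckeAlphaBar Kbar N ℓ) (heckeBetaBar Kbar N ℓ (u : FF N)) ∈ gaussO A N,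
      resO A N M' hRF1 ⟨_, h⟩ = normAlong αb (βb (resO A N M' hRF1 u)) := by
  obtain ⟨h, hnorm⟩ := gaussRes_normAlong_alpha_beta A N M' ℓ hM'N hℓ hℓN hRF1 αb βb hαb hβb hdeg
    (toSub A N u)
  exact ⟨h, Subtype.ext hnorm⟩

end Main

end Fermat.Agent.T1B.Brandt14
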