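/-
Programme T1B (row 38 / S44), cell R2/BRANDT, part (b) (helper14): REDUCTION COMMUTES WITH THE NORM,
the UNCONDITIONAL instance at level `N = M' p`, `4 ∣ M'`, `p ∤ M'`, `ℓ ∤ M' p` prime:

`V = gaussO A (M' p)` the Gauss valuation ring of `FF (M' p)` (expansion at `∞`), `A` over `p`,
`κ = Kap A`, `res₁ = resO … : V →+* k₁ = modularFunctionFieldFullC κ M'` (RESFIELD-ID
`Hecke16/ResFieldX0.gaussRes_mem_fullC_four`), `ᾱ β̄ = Hecke87/CharPX0.alphaC/betaC κ M' ℓ`: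

* `res₁_normAlong_alpha_beta` : `∀ u ∈ V`, `N_α (β u) ∈ V` and `res₁ (N_α (β u)) = N_ᾱ (β̄ (res₁ u))`
  — the hypothesis `hb` of `Brandt36/Main.rho_correspondence` (before applying `lam`/`resVec`).
-/
import Mathlib
import Fermat.Agent.T1B.Brandt14.NormRedX0
import Fermat.Agent.T1B.Hecke87.CharPX0
import Fermat.Agent.T1B.Hecke16.ResFieldX0
import Fermat.Agent.ES.KRON.KronInst10

set_option autoImplicit false
set_option linter.unusedSectionVars false

noncomputable section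

open HahnSeries ModularCurve IntermediateField AlgebraicCurve

namespace Fermat.Agent.T1B.Brandt14

open Fermat.Agent.X0 Fermat.Agent.T1B.Hecke3 Fermat.Agent.T1B.Hecke16
open Fermat.Agent.ES.HECKE.PointFormula28 Fermat.Agent.T1B.Hecke87.CharPX0

variable (A : ValuationSubring Kbar) {p : ℕ} [hp : Fact p.Prime] (hA : A.LiesOverPrime p)
variable (M' ℓ : ℕ) [NeZero M'] [NeZero ℓ] [NeZero p]
variable (hpM' : ¬ p ∣ M') (hM' : 4 ∣ M') (hℓ : ℓ.Prime) (hℓN : ¬ ℓ ∣ M' * p)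

include hA hpM' hM' in
/-- (RF1) at level `M' p`, `4 ∣ M'`, for the expansion at `∞`. -/
theorem hRF1_four (u : gaussSub A (iotaHom (M' * p))) :
    gaussRes A (iotaHom (M' * p)) u ∈ modularFunctionFieldFullC (Kap A) M' :=
  gaussRes_mem_fullC_four A hp.out hpM' hM' hA (iotaHom (M' * p)) (fun _ => rfl) u

include hA hpM' hM' hℓ hℓN in
/-- **(b) of (R2), unconditional**: `res₁ (N_α (β u)) = N_ᾱ (β̄ (res₁ u))`. -/
theorem res₁_normAlong_alpha_beta (u : ↥(gaussO A (M' * p))) :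
    ∃ h : normAlong (heckeAlphaBar Kbar (M' * p) ℓ) (heckeBetaBar Kbar (M' * p) ℓ (u : FF (M' * p))) ∈
        gaussO A (M' * p),
      resO A (M' * p) M' (hRF1_four A hA M' hpM' hM') ⟨_, h⟩ =
        normAlong (alphaC (Kap A) M' ℓ)
          (betaC (Kap A) M' ℓ (resO A (M' * p) M' (hRF1_four A hA M' hpM' hM') u)) := by
  have : CharP (Kap A) p := Fermat.Agent.ES.KRON.KronInst10.charP_residueField A hp.out hA
  have hℓM' : ¬ ℓ ∣ M' := fun h => hℓN (h.mul_right p)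
  have hpℓ : ¬ p ∣ M' * ℓ := by
    intro h
    rcases (Nat.Prime.dvd_mul hp.out).1 h with h | h
    · exact hpM' h
    · exact hℓN (((Nat.prime_dvd_prime_iff_eq hp.out hℓ).1 h) ▸ dvd_mul_left p M')
  exact resO_normAlong_alpha_beta A (M' * p) M' ℓ (dvd_mul_right M' p) hℓ hℓN
    (hRF1_four A hA M' hpM' hM') (alphaC (Kap A) M' ℓ) (betaC (Kap A) M' ℓ)
    (fun x => coe_alphaC (Kap A) M' ℓ x) (fun x => coe_betaC (Kap A) M' ℓ x)
    (finrankAlong_alphaC (Kap A) p M' ℓ hpℓ hℓ hℓM') u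

end Fermat.Agent.T1B.Brandt14
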