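/-
Programme T1B (row 38 / S44), cell R2/BRANDT, the last mile (helper14): THE TERMS of the
auxiliary-function package at the level `N = M' p`, `4 ∣ M'`, `p ∤ M'`, `A` over `p`, `κ = Kap A`,
`k₁ = modularFunctionFieldFullC κ M'`, `k₁' = modularFunctionFieldFullC κ (M' ℓ)`, and the
`ℓ`-clauses `hQ`, `hReg` from the landed suppliers:

* `tK_mem`, `RegK`   : `t̄ = tq κ 4 8 ∈ k₁` (`AuxUnit29`), `RegK v := t̄ ∈ O_v` (`= AuxUnit29.RegT`);
* `DK`               : `D̄ ∈ k₁` with `q`-series `h0S κ p`; `resO_h0F` : it is `res₁ h0F`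
                       (`AuxUnit33/Gauss`);
* `tK_mem'`, `RegK'` : the same at the level `M' ℓ`;  `UK` : `Ū ∈ k₁'` with `q`-series `h0S κ ℓ`;
* `betaC_DK`         : (a) `β̄ D̄ = ᾱ D̄ · Ū^(p-1)` (`AuxUnit33/Main`);
* `regK_restrictAlong_alphaC` : `RegK (ᾱ^* w) ↔ RegK' w` (`ᾱ t̄ = t̄`);
* `regK_restrictAlong_betaC`  : (c) `RegK' w → RegK (β̄^* w)` (`AuxUnit29/RegBetaGen`);
* `hQ_K`, `hReg_K`   : the `ℓ`-clauses, from `hnode : ∀ e, RegK (vE e)` and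
                       (iii) `∀ w, RegK' w → ord_w Ū = 0`;
  `hQ_K_fiber`, `hReg_K_fiber` : the same in the `Place.fiberAlong` shape of `Brandt57/Inst`.
-/
import Mathlib
import Fermat.Agent.T1B.Brandt14.AuxAsm
import Fermat.Agent.T1B.Brandt14.NormRedFullC
import Fermat.Agent.T1B.AuxUnit33.Main
import Fermat.Agent.T1B.AuxUnit33.Gauss
import Fermat.Agent.T1B.AuxUnit29.RegBetaGen

set_option autoImplicit false
set_option linter.unusedSectionVars false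
set_option linter.unusedVariables false
set_option linter.style.haveILetI false

noncomputable section

open HahnSeries ModularCurve IntermediateField AlgebraicCurve

namespace Fermat.Agent.T1B.Brandt14

open Fermat.Agent.X0 Fermat.Agent.T1B.Hecke3 Fermat.Agent.T1B.Hecke16
open Fermat.Agent.T1B.Hecke87.CharPX0 Fermat.Agent.T1B.TestElt79
open Fermat.Agent.RED.BASE.EtaQuot12

attribute [local instance 5000] SubalgebraClass.toAlgebra

variable (A : ValuationSubring Kbar) {p : ℕ} [hp : Fact p.Prime] (hA : A.LiesOverPrime p)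
variable (M' : ℕ) [NeZero M'] [NeZero p]
variable (hpM' : ¬ p ∣ M') (hM' : 4 ∣ M')

/-! ### Level `M'` -/

include hA hpM' hM' in
/-- `t̄ ∈ k₁`. -/
theorem tK_mem : tq (Kap A) 4 8 ∈ modularFunctionFieldFullC (Kap A) M' :=
  Fermat.Agent.T1B.AuxUnit29.tq_res_mem_fullC_four p A hA M' hpM' hM'

/-- **`Reg`**: `t̄` is regular at `v`. -/
def RegK (v : Place (Kap A) ↥(modularFunctionFieldFullC (Kap A) M')) : Prop :=
  Fermat.Agent.T1B.AuxUnit29.RegT A M' (tK_mem A hA M' hpM' hM') v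

theorem regK_iff (v : Place (Kap A) ↥(modularFunctionFieldFullC (Kap A) M')) :
    RegK A hA M' hpM' hM' v ↔
      (⟨tq (Kap A) 4 8, tK_mem A hA M' hpM' hM'⟩ : ↥(modularFunctionFieldFullC (Kap A) M')) ∈
        v.toValuationSubring := Iff.rfl

/-- **`D̄`**: the auxiliary function, with `q`-series `h0S κ p`. -/
def DK : ↥(modularFunctionFieldFullC (Kap A) M') :=
  ⟨h0S (Kap A) p, Fermat.Agent.T1B.AuxUnit33.h0S_self_mem_fullC A hp.out hA M' hM' hpM'⟩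

theorem coe_DK :
    ((DK A hA M' hpM' hM' : ↥(modularFunctionFieldFullC (Kap A) M')) : LaurentSeries (Kap A)) =
      h0S (Kap A) p := rfl

/-- `D̄ = res₁ h0`, `h0 = h0F (M' p) p` the test element of `TestElt79`. -/
theorem resO_h0F (u : ↥(gaussO A (M' * p)))
    (hu : (u : FF (M' * p)) = h0F (M' * p) p (Nat.mul_dvd_mul_right hM' p)) :
    resO A (M' * p) M' (hRF1_four A hA M' hpM' hM') u = DK A hA M' hpM' hM' :=
  Subtype.ext (Fermat.Agent.T1B.AuxUnit33.gaussRes_h0F A (M' * p) p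
    (Nat.mul_dvd_mul_right hM' p) (toSub A (M' * p) u) hu)

/-- the test element lies in the Gauss valuation ring. -/
theorem h0F_mem_gaussO :
    h0F (M' * p) p (Nat.mul_dvd_mul_right hM' p) ∈ gaussO A (M' * p) :=
  Fermat.Agent.T1B.AuxUnit33.h0F_mem_gaussSub A (M' * p) p (Nat.mul_dvd_mul_right hM' p)

/-! ### Level `M' ℓ` -/

variable (ℓ : ℕ) [NeZero ℓ] (hpℓ : ¬ p ∣ M' * ℓ)

include hA hM' hpℓ in
/-- `t̄ ∈ k₁'`. -/
theorem tK_mem' : tq (Kap A) 4 8 ∈ modularFunctionFieldFullC (Kap A) (M' * ℓ) :=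
  Fermat.Agent.T1B.AuxUnit29.tq_res_mem_fullC_four p A hA (M' * ℓ) hpℓ (hM'.mul_right ℓ)

/-- **`NonCusp`**: `t̄` is regular at the place `w` of `k₁'`. -/
def RegK' (w : Place (Kap A) ↥(modularFunctionFieldFullC (Kap A) (M' * ℓ))) : Prop :=
  Fermat.Agent.T1B.AuxUnit29.RegT A (M' * ℓ) (tK_mem' A hA M' hM' ℓ hpℓ) w

/-- **`Ū`**: the reduction of the modular unit of level `M' ℓ`, with `q`-series `h0S κ ℓ`. -/
def UK : ↥(modularFunctionFieldFullC (Kap A) (M' * ℓ)) :=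
  ⟨h0S (Kap A) ℓ, Fermat.Agent.T1B.AuxUnit33.h0S_mem_fullC A hp.out hA (M' * ℓ) ℓ
    (Nat.mul_dvd_mul_right hM' ℓ) hpℓ⟩

theorem coe_UK :
    ((UK A hA M' hM' ℓ hpℓ : ↥(modularFunctionFieldFullC (Kap A) (M' * ℓ))) :
      LaurentSeries (Kap A)) = h0S (Kap A) ℓ := rfl

/-- **(a)** `β̄ D̄ = ᾱ D̄ · Ū^(p-1)`. -/
theorem betaC_DK :
    betaC (Kap A) M' ℓ (DK A hA M' hpM' hM') =
      alphaC (Kap A) M' ℓ (DK A hA M' hpM' hM') * UK A hA M' hM' ℓ hpℓ ^ (p - 1) := by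
  haveI : CharP (Kap A) p := Fermat.Agent.ES.KRON.KronInst10.charP_residueField A hp.out hA
  exact Fermat.Agent.T1B.AuxUnit33.betaC_eq_alphaC_mul (Kap A) p M' ℓ (DK A hA M' hpM' hM')
    (coe_DK A hA M' hpM' hM') (UK A hA M' hM' ℓ hpℓ) (coe_UK A hA M' hM' ℓ hpℓ)

/-- `ᾱ t̄ = t̄`. -/
theorem alphaC_tK :
    alphaC (Kap A) M' ℓ ⟨tq (Kap A) 4 8, tK_mem A hA M' hpM' hM'⟩ =
      (⟨tq (Kap A) 4 8, tK_mem' A hA M' hM' ℓ hpℓ⟩ :
        ↥(modularFunctionFieldFullC (Kap A) (M' * ℓ))) :=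
  Subtype.ext (coe_alphaC (Kap A) M' ℓ _)

/-- `t̄` is regular at `ᾱ^* w` iff it is regular at `w`. -/
theorem regK_restrictAlong_alphaC (hα : (alphaC (Kap A) M' ℓ).toRingHom.IsIntegral)
    (w : Place (Kap A) ↥(modularFunctionFieldFullC (Kap A) (M' * ℓ))) :
    RegK A hA M' hpM' hM' (w.restrictAlong (alphaC (Kap A) M' ℓ) hα) ↔
      RegK' A hA M' hM' ℓ hpℓ w := by
  show alphaC (Kap A) M' ℓ ⟨tq (Kap A) 4 8, tK_mem A hA M' hpM' hM'⟩ ∈ w.toValuationSubring ↔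
    (⟨tq (Kap A) 4 8, tK_mem' A hA M' hM' ℓ hpℓ⟩ :
      ↥(modularFunctionFieldFullC (Kap A) (M' * ℓ))) ∈ w.toValuationSubring
  rw [alphaC_tK A hA M' hpM' hM' ℓ hpℓ]

variable (hℓ : ℓ.Prime) (hℓM' : ¬ ℓ ∣ M')

include hℓ hℓM' in
/-- **(c)**: if `t̄` is regular at `w` then it is regular at `β̄^* w`. -/
theorem regK_restrictAlong_betaC (hα : (alphaC (Kap A) M' ℓ).toRingHom.IsIntegral)
    (hβ : (betaC (Kap A) M' ℓ).toRingHom.IsIntegral)
    (w : Place (Kap A) ↥(modularFunctionFieldFullC (Kap A) (M' * ℓ)))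
    (hw : RegK' A hA M' hM' ℓ hpℓ w) :
    RegK A hA M' hpM' hM' (w.restrictAlong (betaC (Kap A) M' ℓ) hβ) :=
  Fermat.Agent.T1B.AuxUnit29.hReg_of_restrictAlong_eq_four87 ℓ p A hA M' hM' hℓ hℓM' hpℓ
    (tK_mem A hA M' hpM' hM') hα hβ (w.restrictAlong (alphaC (Kap A) M' ℓ) hα)
    ((regK_restrictAlong_alphaC A hA M' hpM' hM' ℓ hpℓ hα w).2 hw) w rfl

/-! ### The `ℓ`-clauses -/

variable {ι : Type*} (vE : ι → Place (Kap A) ↥(modularFunctionFieldFullC (Kap A) M'))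
variable (hnode : ∀ e, RegK A hA M' hpM' hM' (vE e))
variable (hiii : ∀ w : Place (Kap A) ↥(modularFunctionFieldFullC (Kap A) (M' * ℓ)),
  RegK' A hA M' hM' ℓ hpℓ w → w.ord (UK A hA M' hM' ℓ hpℓ) = 0)

include hnode in
/-- **(d)**: every place of `k₁'` over a node is in the chart. -/
theorem regK'_of_over_node (hα : (alphaC (Kap A) M' ℓ).toRingHom.IsIntegral)
    (w : Place (Kap A) ↥(modularFunctionFieldFullC (Kap A) (M' * ℓ))) (e : ι)
    (hw : w.restrictAlong (alphaC (Kap A) M' ℓ) hα = vE e) : RegK' A hA M' hM' ℓ hpℓ w := by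
  rw [← regK_restrictAlong_alphaC A hA M' hpM' hM' ℓ hpℓ hα w, hw]
  exact hnode e

include hnode hiii in
/-- **`hQ`**: `ord_w (β̄ D̄) = ord_w (ᾱ D̄)` at every place `w` over a node. -/
theorem hQ_K (hα : (alphaC (Kap A) M' ℓ).toRingHom.IsIntegral) :
    ∀ e, ∀ w : Place (Kap A) ↥(modularFunctionFieldFullC (Kap A) (M' * ℓ)),
      w.restrictAlong (alphaC (Kap A) M' ℓ) hα = vE e →
        w.ord (betaC (Kap A) M' ℓ (DK A hA M' hpM' hM')) =
          w.ord (alphaC (Kap A) M' ℓ (DK A hA M' hpM' hM')) :=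
  hQ_of_asm (alphaC (Kap A) M' ℓ) (betaC (Kap A) M' ℓ) hα vE (RegK' A hA M' hM' ℓ hpℓ)
    (DK A hA M' hpM' hM') (UK A hA M' hM' ℓ hpℓ) (p - 1)
    (betaC_DK A hA M' hpM' hM' ℓ hpℓ) hiii
    (regK'_of_over_node A hA M' hpM' hM' ℓ hpℓ vE hnode hα)

include hnode hpℓ hℓ hℓM' in
/-- **`hReg`**: `β̄^* w` is in the chart for every place `w` over a node. -/
theorem hReg_K (hα : (alphaC (Kap A) M' ℓ).toRingHom.IsIntegral)
    (hβ : (betaC (Kap A) M' ℓ).toRingHom.IsIntegral) :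
    ∀ e, ∀ w : Place (Kap A) ↥(modularFunctionFieldFullC (Kap A) (M' * ℓ)),
      w.restrictAlong (alphaC (Kap A) M' ℓ) hα = vE e →
        RegK A hA M' hpM' hM' (w.restrictAlong (betaC (Kap A) M' ℓ) hβ) :=
  fun e w hw => regK_restrictAlong_betaC A hA M' hpM' hM' ℓ hpℓ hℓ hℓM' hα hβ w
    (regK'_of_over_node A hA M' hpM' hM' ℓ hpℓ vE hnode hα w e hw)

section Fiber

variable [HasPrincipalDivisors (Kap A) ↥(modularFunctionFieldFullC (Kap A) (M' * ℓ))]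

include hnode hiii in
/-- `hQ` in the `Place.fiberAlong` shape of `Brandt57/Inst.B_one_gen`. -/
theorem hQ_K_fiber (hα : (alphaC (Kap A) M' ℓ).toRingHom.IsIntegral) :
    ∀ e, ∀ w ∈ Place.fiberAlong (alphaC (Kap A) M' ℓ) hα (vE e),
      w.ord (betaC (Kap A) M' ℓ (DK A hA M' hpM' hM')) =
        w.ord (alphaC (Kap A) M' ℓ (DK A hA M' hpM' hM')) :=
  fun e w hw => hQ_K A hA M' hpM' hM' ℓ hpℓ vE hnode hiii hα e w (Place.mem_fiberAlong.1 hw)

include hnode hpℓ hℓ hℓM' in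
/-- `hReg` in the `Place.fiberAlong` shape of `Brandt57/Inst.B_one_gen`. -/
theorem hReg_K_fiber (hα : (alphaC (Kap A) M' ℓ).toRingHom.IsIntegral)
    (hβ : (betaC (Kap A) M' ℓ).toRingHom.IsIntegral) :
    ∀ e, ∀ w ∈ Place.fiberAlong (alphaC (Kap A) M' ℓ) hα (vE e),
      RegK A hA M' hpM' hM' (w.restrictAlong (betaC (Kap A) M' ℓ) hβ) :=
  fun e w hw => hReg_K A hA M' hpM' hM' ℓ hpℓ hℓ hℓM' vE hnode hα hβ e w
    (Place.mem_fiberAlong.1 hw)

end Fiber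

end Fermat.Agent.T1B.Brandt14
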