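/-
Programme T1B (row 38 / S44), cell R2/BRANDT, THE LAST MILE (helper14, assembler): helper57's
`Brandt57.AuxData (levelF A p M' hpM') vE` from the landed suppliers, at the level `N = M' p`,
`4 ∣ M'`, `p ∤ M'`, `A` a valuation ring of `ℚ̄` over `p`, `κ = Kap A`:

* `D := DK` (`q`-series `h0S κ p`, `= res₁ h0F`: `AuxUnit33/Gauss`), `Reg := RegK` (`t̄ ∈ O_v`,
  `= AuxUnit29.RegT`);
* `hiii_K`        : (iii) `t̄ ∈ O_w → ord_w Ū = 0` (`AuxUnit29/UnitRes`, helper29; twin: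
                    `AuxUnit33/OrdUnitFin`, helper33);
* `auxDataK`      : `AuxData` for ANY family `vE` from `hnode : ∀ e, RegK (vE e)`,
                    `hDE : ∀ e, (vE e).ord D̄ = c` (`c ≠ 0`) and `hDoff`;
* `NodeK`, `vK`   : THE INTRINSIC NODE FAMILY `{v // RegK v ∧ v.ord D̄ ≠ 0}` (level-independent);
  `auxDataNodeK`  : `AuxData` for it from `hDE : ∀ v, RegK v → v.ord D̄ ≠ 0 → v.ord D̄ = c` ALONE;
* `BF_one_nodeK`, `rhoF_T_nodeK` : the fields `B_one`, `ρ_T` of `Local66.Assembly.LocalGeom` for the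
  intrinsic family, from `∃ c ≠ 0, ∀ v, RegK v → v.ord D̄ ≠ 0 → v.ord D̄ = c` alone.
-/
import Mathlib
import Fermat.Agent.T1B.Brandt57.Final
import Fermat.Agent.T1B.Brandt14.AuxTerms
import Fermat.Agent.T1B.AuxUnit29.UnitRes

set_option autoImplicit false
set_option linter.unusedSectionVars false
set_option linter.unusedVariables false
set_option linter.style.haveILetI false

noncomputable section

open HahnSeries ModularCurve IntermediateField AlgebraicCurve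

namespace Fermat.Agent.T1B.Brandt14

open Fermat.Agent.X0 Fermat.Agent.T1B.Hecke3 Fermat.Agent.T1B.Hecke16
open Fermat.Agent.ES.HECKE
open Fermat.Agent.T1B.Hecke87.CharPX0 Fermat.Agent.T1B.TestElt79
open Fermat.Agent.RED.BASE.EtaQuot12 Fermat.Agent.T1B.Brandt57

attribute [local instance 5000] SubalgebraClass.toAlgebra

variable (A : ValuationSubring Kbar) (p : ℕ) [hp : Fact p.Prime] (hA : A.LiesOverPrime p)
  (M' : ℕ) [NeZero M'] [NeZero (M' * p)] (hpM' : ¬ p ∣ M') (hM' : 4 ∣ M')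

/-! ### (iii) -/

/-- **(iii)**: `Ū` is a unit wherever `t̄` is finite (helper29, Route B). -/
theorem hiii_K (ℓ : ℕ) [NeZero ℓ] (hpℓ : ¬ p ∣ M' * ℓ) (hℓ : ℓ.Prime) (hℓM' : ¬ ℓ ∣ M')
    (w : Place (Kap A) ↥(modularFunctionFieldFullC (Kap A) (M' * ℓ)))
    (hw : RegK' A hA M' hM' ℓ hpℓ w) : w.ord (UK A hA M' hM' ℓ hpℓ) = 0 :=
  Fermat.Agent.T1B.AuxUnit29.ord_U_eq_zero_level ℓ p A hA M' hM' hℓ hℓM' hpℓ
    (tK_mem' A hA M' hM' ℓ hpℓ) (UK A hA M' hM' ℓ hpℓ) (coe_UK A hA M' hM' ℓ hpℓ) w hw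

/-! ### `AuxData` for a family of places -/

variable [CharP (Kap A) p]
variable {ι : Type*} (vE : ι → Place (Kap A) ↥(modularFunctionFieldFullC (Kap A) M'))

/-- **`AuxData`** at the level `M' p` for a family `vE` of places of `k₁` in the chart (`hnode`), at
which the auxiliary function `D̄` has constant nonzero order (`hDE`) and off which (in the chart) it
is a unit (`hDoff`). -/
def auxDataK (hnode : ∀ e, RegK A hA M' hpM' hM' (vE e)) (c : ℤ) (hc : c ≠ 0)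
    (hDE : ∀ e, (vE e).ord (DK A hA M' hpM' hM') = c)
    (hDoff : ∀ v : Place (Kap A) ↥(modularFunctionFieldFullC (Kap A) M'),
      RegK A hA M' hpM' hM' v → (¬ ∃ e, vE e = v) → v.ord (DK A hA M' hpM' hM') = 0) :
    AuxData (levelF A p M' hpM') vE where
  Reg := RegK A hA M' hpM' hM'
  D := DK A hA M' hpM' hM'
  c := c
  hc := hc
  hDE := hDE
  hDoff := hDoff
  hQ := fun ℓ hℓN => by
    haveI : NeZero (ℓ : ℕ) := ⟨ℓ.2.ne_zero⟩
    have hpℓ : ¬ p ∣ M' * (ℓ : ℕ) := (levelF A p M' hpM').not_dvd ℓ hℓN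
    have hℓM' : ¬ (ℓ : ℕ) ∣ M' := fun h => hℓN (h.mul_right p)
    exact hQ_K A hA M' hpM' hM' (ℓ : ℕ) hpℓ vE hnode
      (hiii_K A p hA M' hM' (ℓ : ℕ) hpℓ ℓ.2 hℓM') _
  hReg := fun ℓ hℓN => by
    haveI : NeZero (ℓ : ℕ) := ⟨ℓ.2.ne_zero⟩
    have hpℓ : ¬ p ∣ M' * (ℓ : ℕ) := (levelF A p M' hpM').not_dvd ℓ hℓN
    have hℓM' : ¬ (ℓ : ℕ) ∣ M' := fun h => hℓN (h.mul_right p)
    exact hReg_K A hA M' hpM' hM' (ℓ : ℕ) hpℓ ℓ.2 hℓM' vE hnode _ _

/-! ### The intrinsic node family -/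

/-- **The intrinsic node family**: the zeros/poles of the auxiliary function `D̄` on the `t̄`-finite
part of the curve (level-independent index type). -/
def NodeK : Type :=
  {v : Place (Kap A) ↥(modularFunctionFieldFullC (Kap A) M') //
    RegK A hA M' hpM' hM' v ∧ v.ord (DK A hA M' hpM' hM') ≠ 0}

/-- the places of the intrinsic node family. -/
def vK : NodeK A p hA M' hpM' hM' → Place (Kap A) ↥(modularFunctionFieldFullC (Kap A) M') :=
  Subtype.val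

theorem vK_injective : Function.Injective (vK A p hA M' hpM' hM') := Subtype.val_injective

theorem regK_vK (e : NodeK A p hA M' hpM' hM') : RegK A hA M' hpM' hM' (vK A p hA M' hpM' hM' e) :=
  e.2.1

theorem ord_DK_vK_ne_zero (e : NodeK A p hA M' hpM' hM') :
    (vK A p hA M' hpM' hM' e).ord (DK A hA M' hpM' hM') ≠ 0 := e.2.2

theorem exists_vK_eq_iff (v : Place (Kap A) ↥(modularFunctionFieldFullC (Kap A) M')) :
    (∃ e, vK A p hA M' hpM' hM' e = v) ↔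
      (RegK A hA M' hpM' hM' v ∧ v.ord (DK A hA M' hpM' hM') ≠ 0) :=
  ⟨fun ⟨e, he⟩ => he ▸ e.2, fun h => ⟨⟨v, h⟩, rfl⟩⟩

/-- **`AuxData` for the intrinsic node family**: only (i) `hDE` is needed. -/
def auxDataNodeK (c : ℤ) (hc : c ≠ 0)
    (hDE : ∀ v : Place (Kap A) ↥(modularFunctionFieldFullC (Kap A) M'),
      RegK A hA M' hpM' hM' v → v.ord (DK A hA M' hpM' hM') ≠ 0 →
        v.ord (DK A hA M' hpM' hM') = c) :
    AuxData (levelF A p M' hpM') (vK A p hA M' hpM' hM') :=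
  auxDataK A p hA M' hpM' hM' (vK A p hA M' hpM' hM') (regK_vK A p hA M' hpM' hM') c hc
    (fun e => hDE e.1 e.2.1 e.2.2)
    (fun v hv hno => by
      by_contra h
      exact hno ⟨⟨v, hv, h⟩, rfl⟩)

/-- **(R2) `B_one`** for the intrinsic node family. -/
theorem BF_one_nodeK
    (hDE : ∃ c : ℤ, c ≠ 0 ∧ ∀ v : Place (Kap A) ↥(modularFunctionFieldFullC (Kap A) M'),
      RegK A hA M' hpM' hM' v → v.ord (DK A hA M' hpM' hM') ≠ 0 →
        v.ord (DK A hA M' hpM' hM') = c)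
    (ℓ : Nat.Primes) (hℓN : ¬ (ℓ : ℕ) ∣ M' * p) :
    BF A p M' hpM' (vK A p hA M' hpM' hM') ℓ (fun _ => 1) =
      ((ℓ : ℕ) + 1 : ℤ) • (fun _ => 1 : NodeK A p hA M' hpM' hM' → ZMod p) := by
  obtain ⟨c, hc, h⟩ := hDE
  exact BF_one A p M' hpM' (vK A p hA M' hpM' hM') (auxDataNodeK A p hA M' hpM' hM' c hc h) ℓ hℓN

/-- **(R2) `ρ_T`** for the intrinsic node family. -/
theorem rhoF_T_nodeK
    (hDE : ∃ c : ℤ, c ≠ 0 ∧ ∀ v : Place (Kap A) ↥(modularFunctionFieldFullC (Kap A) M'),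
      RegK A hA M' hpM' hM' v → v.ord (DK A hA M' hpM' hM') ≠ 0 →
        v.ord (DK A hA M' hpM' hM') = c)
    (ℓ : Nat.Primes) (hℓN : ¬ (ℓ : ℕ) ∣ M' * p) (x : Pic0 Kbar (FF (M' * p)))
    (hx : x ∈ Pic0.torsion Kbar (FF (M' * p)) p)
    (hx' : heckeOperatorBar (M' * p) ℓ x ∈ Pic0.torsion Kbar (FF (M' * p)) p) :
    rhoF A p hA M' hpM' hM' (vK A p hA M' hpM' hM') ⟨heckeOperatorBar (M' * p) ℓ x, hx'⟩ =
      BF A p M' hpM' (vK A p hA M' hpM' hM') ℓ
        (rhoF A p hA M' hpM' hM' (vK A p hA M' hpM' hM') ⟨x, hx⟩) := by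
  obtain ⟨c, hc, h⟩ := hDE
  exact rhoF_T A p hA M' hpM' hM' (vK A p hA M' hpM' hM')
    (auxDataNodeK A p hA M' hpM' hM' c hc h) ℓ hℓN x hx hx'

/-! ### `D̄` as a residue -/

/-- `D̄ = res1 h0` for helper57's residue map `res1` and any `u ∈ V1` with `↑u = h0F (M' p) p`. -/
theorem res1_h0F (u : ↥(V1 A p (M' * p) (HDF A p M')))
    (hu : (u : FF (M' * p)) = h0F (M' * p) p (Nat.mul_dvd_mul_right hM' p)) :
    res1 A p (M' * p) M' (HDF A p M') (hrangeF A p hA M' hpM' hM') u = DK A hA M' hpM' hM' :=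
  resO_h0F A hA M' hpM' hM' u hu

end Fermat.Agent.T1B.Brandt14
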