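/-
Programme T1B (row 38 / S44), cell R2/BRANDT, part (b) (helper14): the two degeneracy maps in
characteristic `p`, their degrees and their separability.

`κ` a field of characteristic `p`, `F_N = κ(j(q^d) : d ∣ N) = modularFunctionFieldFullC κ N ⊂ κ((q))`
(the function field of `X₀(N)_κ` for `p ∤ N`), `ℓ ∤ N p` a prime:

* `alphaC κ N ℓ`, `betaC κ N ℓ : F_N →ₐ[κ] F_{Nℓ}`  (inclusion, resp. `q ↦ q^ℓ`);
* `finrankAlong_alphaC`, `finrankAlong_betaC` : both have degree `ℓ + 1` (Prelude `Along` vocabulary);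
* `finiteAlong_alphaC`, `finiteAlong_betaC`;
* separability along both maps (for `κ` perfect; NOT from the degree, `p ∣ ℓ + 1` is allowed) is in
  `T1B/Brandt27/BridgeC.lean` (helper27), via `T1B/Hecke87/CharPX0.lean` (helper87).
(compiled and landed for helper14 by helper27.)
-/
import Mathlib
import Fermat.Agent.ES.HECKE.AlongDegree25
import Fermat.Agent.RED.PUR.SepLaurent25
import Fermat.Agent.IG.AN.ModPoly3

set_option autoImplicit false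
set_option linter.unusedSectionVars false

noncomputable section

open HahnSeries ModularCurve IntermediateField AlgebraicCurve

namespace Fermat.Agent.T1B.Brandt14

open Fermat.Agent.IG Fermat.Agent.RED.PUR Fermat.Agent.ES.HECKE

section Defs

variable (κ : Type*) [Field κ] (N ℓ : ℕ) [NeZero N] [NeZero ℓ]

/-- `ᾱ : F_N → F_{Nℓ}`, the inclusion. -/
def alphaC : ↥(modularFunctionFieldFullC κ N) →ₐ[κ] ↥(modularFunctionFieldFullC κ (N * ℓ)) :=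
  IntermediateField.inclusion (full_degeneracyC_le κ (dvd_mul_right N ℓ))

@[simp]
theorem coe_alphaC (x : ↥(modularFunctionFieldFullC κ N)) :
    (alphaC κ N ℓ x : LaurentSeries κ) = (x : LaurentSeries κ) :=
  IntermediateField.coe_inclusion _ x

/-- `β̄ : F_N → F_{Nℓ}`, `q ↦ q^ℓ`. -/
def betaC : ↥(modularFunctionFieldFullC κ N) →ₐ[κ] ↥(modularFunctionFieldFullC κ (N * ℓ)) where
  toFun x := ⟨qExpand κ ℓ (x : LaurentSeries κ),
    full_degeneracyC_map_le κ N ℓ ⟨(x : LaurentSeries κ), x.2, rfl⟩⟩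
  map_one' := Subtype.ext (map_one (qExpand κ ℓ))
  map_mul' _ _ := Subtype.ext (map_mul (qExpand κ ℓ) _ _)
  map_zero' := Subtype.ext (map_zero (qExpand κ ℓ))
  map_add' _ _ := Subtype.ext (map_add (qExpand κ ℓ) _ _)
  commutes' a := Subtype.ext <| by
    show qExpand κ ℓ (algebraMap κ (LaurentSeries κ) a) = algebraMap κ (LaurentSeries κ) a
    rw [algebraMap_laurentSeries_eq_single, qExpand_single, mul_zero]

@[simp]
theorem coe_betaC (x : ↥(modularFunctionFieldFullC κ N)) :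
    (betaC κ N ℓ x : LaurentSeries κ) = qExpand κ ℓ (x : LaurentSeries κ) := rfl

end Defs

section Degree

variable (p : ℕ) [Fact p.Prime] (κ : Type) [Field κ] [CharP κ p] (N ℓ : ℕ) [NeZero N] [NeZero ℓ]

theorem not_dvd_mul_prime {ℓ : ℕ} (hℓ : ℓ.Prime) (hpN : ¬ p ∣ N) (hpℓ : p ≠ ℓ) : ¬ p ∣ N * ℓ := by
  intro h
  rcases (Nat.Prime.dvd_mul (Fact.out : p.Prime)).1 h with h | h
  · exact hpN h
  · exact hpℓ ((Nat.prime_dvd_prime_iff_eq (Fact.out : p.Prime) hℓ).1 h)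

theorem natCast_ne_zero_of_ne {ℓ : ℕ} (hℓ : ℓ.Prime) (hpℓ : p ≠ ℓ) : (ℓ : κ) ≠ 0 := by
  intro h0
  rw [CharP.cast_eq_zero_iff κ p] at h0
  exact hpℓ ((Nat.prime_dvd_prime_iff_eq (Fact.out : p.Prime) hℓ).1 h0)

/-- **`[F_{Nℓ} : F_N] = ℓ + 1`** in characteristic `p ∤ N ℓ`. -/
theorem relfinrank_alphaC (hℓ : ℓ.Prime) (hℓN : ¬ ℓ ∣ N) (hpN : ¬ p ∣ N) (hpℓ : p ≠ ℓ) :
    relfinrank (modularFunctionFieldFullC κ N) (modularFunctionFieldFullC κ (N * ℓ)) = ℓ + 1 := by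
  have h1 := DegBaseChange25.relfinrank_fullC_eq_psi_of_charP p κ N hpN
  have h2 := DegBaseChange25.relfinrank_fullC_eq_psi_of_charP p κ (N * ℓ)
    (not_dvd_mul_prime p N hℓ hpN hpℓ)
  have hmul := relfinrank_mul_relfinrank (DegreeL25.simple_le_fullC κ N)
    (full_degeneracyC_le κ (dvd_mul_right N ℓ))
  rw [h1, h2, DegreeL25.psi_mul_prime N ℓ hℓ hℓN] at hmul
  exact Nat.eq_of_mul_eq_mul_left (Fermat.Agent.X0.GNPsi.gnp_dedekindPsi_pos (NeZero.ne N)) hmul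

/-- **`[F_{Nℓ} : V(F_N)] = ℓ + 1`** in characteristic `p ∤ N ℓ`, `V = (q ↦ q^ℓ)`. -/
theorem relfinrank_betaC (hℓ : ℓ.Prime) (hℓN : ¬ ℓ ∣ N) (hpN : ¬ p ∣ N) (hpℓ : p ≠ ℓ) :
    relfinrank ((modularFunctionFieldFullC κ N).map (qExpandAlgHomC κ ℓ))
      (modularFunctionFieldFullC κ (N * ℓ)) = ℓ + 1 := by
  have hψN := DegBaseChange25.relfinrank_fullC_eq_psi_of_charP p κ N hpN
  have hψNℓ := DegBaseChange25.relfinrank_fullC_eq_psi_of_charP p κ (N * ℓ)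
    (not_dvd_mul_prime p N hℓ hpN hpℓ)
  have hψpos := Fermat.Agent.X0.GNPsi.gnp_dedekindPsi_pos (NeZero.ne N)
  have hℓκ : (ℓ : κ) ≠ 0 := natCast_ne_zero_of_ne p κ hℓ hpℓ
  obtain ⟨⟨-, hleft⟩, ⟨-, hright⟩⟩ := PR.Main20.primeLevel ℓ hℓ.two_le (AN.ModPoly3.p0 ℓ hℓ)
    AN.FormalJ10.p1 (AN.P2Final9.p2 ℓ) κ hℓκ
  have hA : κ⟮jqModC κ⟯ ≤ κ⟮jqModC κ⟯ ⊔ κ⟮qExpand κ ℓ (jqModC κ)⟯ := le_sup_left
  have hAℓ : κ⟮qExpand κ ℓ (jqModC κ)⟯ ≤ κ⟮jqModC κ⟯ ⊔ κ⟮qExpand κ ℓ (jqModC κ)⟯ := le_sup_right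
  have hjℓ : qExpand κ ℓ (jqModC κ) ∈ modularFunctionFieldFullC κ (N * ℓ) :=
    jqModCd_mem_full κ (N * ℓ) (dvd_mul_left ℓ N)
  have hC : κ⟮jqModC κ⟯ ⊔ κ⟮qExpand κ ℓ (jqModC κ)⟯ ≤ modularFunctionFieldFullC κ (N * ℓ) :=
    sup_le (DegreeL25.simple_le_fullC κ (N * ℓ)) (adjoin_simple_le_iff.mpr hjℓ)
  have h1 := relfinrank_mul_relfinrank hA hC
  rw [hleft, hψNℓ, DegreeL25.psi_mul_prime N ℓ hℓ hℓN, mul_comm] at h1
  have hx : relfinrank (κ⟮jqModC κ⟯ ⊔ κ⟮qExpand κ ℓ (jqModC κ)⟯)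
      (modularFunctionFieldFullC κ (N * ℓ)) = dedekindPsi N :=
    Nat.eq_of_mul_eq_mul_right (Nat.succ_pos ℓ) h1
  have h2 := relfinrank_mul_relfinrank hAℓ hC
  rw [hright, hx] at h2
  have hmapA : (κ⟮jqModC κ⟯).map (qExpandAlgHomC κ ℓ) = κ⟮qExpand κ ℓ (jqModC κ)⟯ := by
    rw [adjoin_map, Set.image_singleton, qExpandAlgHomC_apply]
  have hle1 : κ⟮qExpand κ ℓ (jqModC κ)⟯ ≤
      (modularFunctionFieldFullC κ N).map (qExpandAlgHomC κ ℓ) := by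
    rw [← hmapA]
    exact IntermediateField.map_mono _ (DegreeL25.simple_le_fullC κ N)
  have hle2 : (modularFunctionFieldFullC κ N).map (qExpandAlgHomC κ ℓ) ≤
      modularFunctionFieldFullC κ (N * ℓ) := full_degeneracyC_map_le κ N ℓ
  have h3 : relfinrank κ⟮qExpand κ ℓ (jqModC κ)⟯
      ((modularFunctionFieldFullC κ N).map (qExpandAlgHomC κ ℓ)) = dedekindPsi N := by
    rw [← hmapA, relfinrank_map_map, hψN]
  have h4 := relfinrank_mul_relfinrank hle1 hle2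
  rw [h3, ← h2, mul_comm (ℓ + 1)] at h4
  exact Nat.eq_of_mul_eq_mul_left hψpos h4

/-- **`[F_{Nℓ} : ᾱ(F_N)] = ℓ + 1`** in the Prelude's `Along` form. -/
theorem finrankAlong_alphaC (hℓ : ℓ.Prime) (hℓN : ¬ ℓ ∣ N) (hpN : ¬ p ∣ N) (hpℓ : p ≠ ℓ) :
    finrankAlong κ (alphaC κ N ℓ) = ℓ + 1 := by
  rw [AlongDegree25.finrankAlong_eq_relfinrank _ _ (alphaC κ N ℓ) (AlgHom.id κ (LaurentSeries κ))
    (fun a => by rw [coe_alphaC]; rfl), IntermediateField.map_id]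
  exact relfinrank_alphaC p κ N ℓ hℓ hℓN hpN hpℓ

/-- **`[F_{Nℓ} : β̄(F_N)] = ℓ + 1`** in the Prelude's `Along` form. -/
theorem finrankAlong_betaC (hℓ : ℓ.Prime) (hℓN : ¬ ℓ ∣ N) (hpN : ¬ p ∣ N) (hpℓ : p ≠ ℓ) :
    finrankAlong κ (betaC κ N ℓ) = ℓ + 1 := by
  rw [AlongDegree25.finrankAlong_eq_relfinrank _ _ (betaC κ N ℓ) (qExpandAlgHomC κ ℓ)
    (fun a => by rw [coe_betaC, qExpandAlgHomC_apply])]
  exact relfinrank_betaC p κ N ℓ hℓ hℓN hpN hpℓ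

theorem finiteAlong_alphaC (hℓ : ℓ.Prime) (hℓN : ¬ ℓ ∣ N) (hpN : ¬ p ∣ N) (hpℓ : p ≠ ℓ) :
    FiniteAlong κ (alphaC κ N ℓ) :=
  AlongDegree25.finiteAlong_of_finrankAlong_pos _
    (by rw [finrankAlong_alphaC p κ N ℓ hℓ hℓN hpN hpℓ]; exact Nat.succ_pos ℓ)

theorem finiteAlong_betaC (hℓ : ℓ.Prime) (hℓN : ¬ ℓ ∣ N) (hpN : ¬ p ∣ N) (hpℓ : p ≠ ℓ) :
    FiniteAlong κ (betaC κ N ℓ) :=
  AlongDegree25.finiteAlong_of_finrankAlong_pos _
    (by rw [finrankAlong_betaC p κ N ℓ hℓ hℓN hpN hpℓ]; exact Nat.succ_pos ℓ)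

end Degree

end Fermat.Agent.T1B.Brandt14
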