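/-
Programme T1B (row 38 / S44), cell R2/BRANDT, R2-FINAL (helper14, assembler), part 1: **(hDE\*) AT THE
HUB CHART**, in the vocabulary of `Unif77/Concrete` (`ES/N34/ModelDefs9`: `A`, `K`, `π`, `B0 A p ht`,
`O1`, `O2`, `res1K`), with the two leaves `hReg-K` (`RegK v ↔ HasCentre`) and `H0-HUB`
(`h0 * g0 = π ^ n`, `h0⁻¹ ∈ O1`, `ord_{O2} h0 ≠ 0`, `resChart h0 = D̄`) as HYPOTHESES.

* `exists_const_ord_of_chart` (abstract, on `Brandt55/Intrinsic`): for a nodal chart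
  `hN : NodalChartHyp π O₁ O₂ K`, a regularity predicate `Reg ↔ HasCentre` and `D = resChart h0`:
  `∃ c ≠ 0, ∀ v, Reg v → ord_v D ≠ 0 → ord_v D = c`   (no `Nonempty` hypothesis: the empty case is
  trivial);
* `hDE_hub` : the same at the hub chart for `Reg := RegK`, `D := DK`;
* `hDE_hub_reg` : the same with `H0-HUB` DISCHARGED (`AuxUnit79/HubH0.h0_hub`, helper79;
  `AuxUnit29/HubH0D.resChart_h0K`, helper29): only `hReg-K` is left;
* `regK_iff_hasCentre` : the leaf `hReg-K` (`Unif77.isIntegral_B0`, `AuxUnit29.resChart_tN`);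
* **`hDE_R2`, `auxData_R2`, `BF_one_R2`, `rhoF_T_R2`** : R2-FINAL, from the model facts `hL`, `hN` ALONE;
* `auxData_hub`, `BF_one_hub`, `rhoF_T_hub` : `Brandt57.AuxData` for the intrinsic node family
  `vK : NodeK → Place κ̄ k₁` and the two `LocalGeom` fields `B_one`, `ρ_T`, from `hReg-K`.
-/
import Mathlib
import Fermat.Agent.T1B.Brandt14.AuxDataAsm
import Fermat.Agent.T1B.Brandt55.Intrinsic
import Fermat.Agent.T1B.Brandt55.K1Facts
import Fermat.Agent.T1B.Unif77.ConcreteAux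
import Fermat.Agent.T1B.AuxUnit29.HubH0D
import Fermat.Agent.T1B.AuxUnit79.HubH0

set_option autoImplicit false
set_option linter.unusedSectionVars false
set_option linter.unusedVariables false
set_option linter.style.haveILetI false

noncomputable section

open HahnSeries ModularCurve IntermediateField AlgebraicCurve

namespace Fermat.Agent.T1B.Brandt14

/-! ### Abstract form -/

section Abstract

open Fermat.Agent.T1B.Hol80 Fermat.Agent.T1B.NodeNF37.Local Fermat.Agent.T1B.NodeNF37.UnifOrd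
  Fermat.Agent.T1B.Brandt96 Fermat.Agent.T1B.Brandt55

variable {B F : Type*} [CommRing B] [IsDomain B] [Field F] [Algebra B F]
variable {κ k : Type*} [Field κ] [Field k] [Algebra κ k]
variable [IsNoetherianRing B]
variable {π : B} {O₁ O₂ : ValuationSubring F} {K : ℕ} (hN : NodalChartHyp π O₁ O₂ K)
  (res₁ : ↥O₁ →+* k) (hres : ∀ z : ↥O₁, ¬ IsUnit z → res₁ z = 0)
  (p : ℕ) [Fact p.Prime] [Algebra (ZMod p) κ] [Algebra.IsAlgebraic (ZMod p) κ]
  (hdeg : ∀ v : Place κ k, v.deg = 1)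
  (hF : ∀ z : F, ∃ b₁ b₂ : B, b₂ ≠ 0 ∧ z * algebraMap B F b₂ = algebraMap B F b₁)
  (htop : IntermediateField.adjoin κ (Set.range res₁) = ⊤)

include hN hres p hdeg hF htop in
/-- **(hDE\*)**: the auxiliary function `D = res₁ h0` has the same nonzero order at all its zeros and
poles on the chart. -/
theorem exists_const_ord_of_chart {h0 g0 : B} {n : ℕ} (hh : h0 * g0 = π ^ n)
    (hinv : (algebraMap B F h0)⁻¹ ∈ O₁)
    (hO₂ : ord O₂ (algebraMap B F π) (algebraMap B F h0) ≠ 0)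
    {Reg : Place κ k → Prop} (hReg : ∀ v, Reg v ↔ HasCentre hN.chart res₁ v)
    {D : k} (hD : resChart res₁ hN.chart.le₁ h0 = D) :
    ∃ c : ℤ, c ≠ 0 ∧ ∀ v : Place κ k, Reg v → v.ord D ≠ 0 → v.ord D = c := by
  by_cases hne : Nonempty {v : Place κ k // Reg v ∧ v.ord D ≠ 0}
  · have hP : ∀ v : Place κ k, (Reg v ∧ v.ord D ≠ 0) ↔ TwoBranch hN.chart res₁ v :=
      twoBranch_iff_of_reg hN res₁ hres p hdeg hF htop hh hinv hO₂ hReg hD
    obtain ⟨c, hc, hDE, -⟩ := w3_aux_P hN res₁ hres p hdeg hF htop hP hh hinv hO₂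
    refine ⟨c, hc, fun v hv hv0 => ?_⟩
    rw [← hD]
    exact hDE ⟨v, hv, hv0⟩
  · exact ⟨1, one_ne_zero, fun v hv hv0 => absurd ⟨⟨v, hv, hv0⟩⟩ hne⟩

end Abstract

/-! ### The hub chart -/

section Hub

open Fermat.Agent.X0 Fermat.Agent.ES.HECKE
open Fermat.Agent.RED.Interface4 Fermat.Agent.RED.PUR.GaussGen8
open Fermat.Agent.RED.PUR.ChartGeneric22
open Fermat.Agent.RED.DESC.PlaceExtend27
open Fermat.Agent.RED.BASE.EtaQuot12
open Fermat.Agent.ES.N34.ModelDefs9 Fermat.Agent.ES.N34.NumData13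
open Fermat.Agent.T1B.Hecke3 Fermat.Agent.T1B.GaussW77 Fermat.Agent.T1B.Hol80
open Fermat.Agent.T1B.Brandt96 Fermat.Agent.T1B.Unif77 Fermat.Agent.T1B.Brandt57
open Fermat.Agent.T1B.NodeNF37.UnifOrd
open scoped Fermat.Agent.T1.Assembly41.FastInst

attribute [local instance 5000] SubalgebraClass.toAlgebra

variable (A : ValuationSubring Qbar) (p : ℕ) [hp : Fact p.Prime] (hA : A.LiesOverPrime p)
  (M' : ℕ) [NeZero M'] [NeZero (M' * p)] (hpM' : ¬ p ∣ M') (hM' : 4 ∣ M')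
variable {K : IntermediateField ℚ Qbar} {π : ↥(AK A K)}
variable (hπ : IsUnif (AK A K) π) (hE : FK (M' * p) K ≤ fracField (AK A K))
  (H : ∀ f : Fbar (M' * p), f ≠ 0 → Normalisable A (coeHom (M' * p) f))
  (hrange : ∀ x : ↥(gaussVal A (coeHom (M' * p)) H),
    gaussResV A (coeHom (M' * p)) H x ∈ modularFunctionFieldFullC (Kap A) M')
  (ht : tq (↥K) 4 8 ∈ FK M' K)
variable (hL : NodalNumData ↥(AK A K) ↥K ↥(FK (M' * p) K) π (tN p ht) (B0 A p ht) (B1 A p ht)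
  (O1 M' p hπ hE) (O2 M' p hπ hE))
variable {Kth : ℕ} (hN : NodalChartHyp (algebraMap ↥(AK A K) ↥(B0 A p ht) π) (O1 M' p hπ hE)
  (O2 M' p hπ hE) Kth)

include hL in
/-- **(hDE\*) at the hub chart**, from the two leaves `hReg-K` and `H0-HUB`. -/
theorem hDE_hub {h0 g0 : ↥(B0 A p ht)} {n : ℕ}
    (hh : h0 * g0 = (algebraMap ↥(AK A K) ↥(B0 A p ht) π) ^ n)
    (hinv : (algebraMap ↥(B0 A p ht) ↥(FK (M' * p) K) h0)⁻¹ ∈ O1 M' p hπ hE)
    (hO₂ : ord (O2 M' p hπ hE)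
      (algebraMap ↥(B0 A p ht) ↥(FK (M' * p) K) (algebraMap ↥(AK A K) ↥(B0 A p ht) π))
      (algebraMap ↥(B0 A p ht) ↥(FK (M' * p) K) h0) ≠ 0)
    (hReg : ∀ v : Place (Kap A) ↥(modularFunctionFieldFullC (Kap A) M'),
      RegK A hA M' hpM' hM' v ↔ HasCentre hN.chart (res1K M' p hπ hE H hrange) v)
    (hD : resChart (res1K M' p hπ hE H hrange) hN.chart.le₁ h0 = DK A hA M' hpM' hM') :
    ∃ c : ℤ, c ≠ 0 ∧ ∀ v : Place (Kap A) ↥(modularFunctionFieldFullC (Kap A) M'),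
      RegK A hA M' hpM' hM' v → v.ord (DK A hA M' hpM' hM') ≠ 0 →
        v.ord (DK A hA M' hpM' hM') = c := by
  haveI := hL.noeth0
  letI : Algebra (ZMod p) (Kap A) := Fermat.Agent.T1B.Brandt55.algebraZModKap A hp.out hA
  haveI : Algebra.IsAlgebraic (ZMod p) (Kap A) :=
    Fermat.Agent.T1B.Brandt55.isAlgebraic_zmod_kap55 A hp.out
  exact exists_const_ord_of_chart hN (res1K M' p hπ hE H hrange)
    (res1K_eq_zero_of_not_isUnit M' p hπ hE H hrange) p
    (Fermat.Agent.T1B.Brandt55.deg_eq_one_kap A M' hp.out hA hpM')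
    (frac_B0 M' p hπ hE ht hL) (adjoin_range_res1K M' p hπ hE H hrange) hh hinv hO₂ hReg hD

/-- **`hReg-K`**: `t̄` is regular at `v` iff `v` has a centre on the hub chart `B0` (the chart is
integral over `(A ∩ K)[t]`, `Unif77.isIntegral_B0`; the residue of `t` is `t̄`,
`AuxUnit29.resChart_tN`). -/
theorem regK_iff_hasCentre
    (Hc : ChartHyp (algebraMap ↥(AK A K) ↥(B0 A p ht) π) (O1 M' p hπ hE) (O2 M' p hπ hE))
    (v : Place (Kap A) ↥(modularFunctionFieldFullC (Kap A) M')) :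
    RegK A hA M' hpM' hM' v ↔ HasCentre Hc (res1K M' p hπ hE H hrange) v := by
  have htres : resChart (res1K M' p hπ hE H hrange) Hc.le₁ (tB0 (A := A) M' p ht) =
      ⟨tq (Kap A) 4 8, tK_mem A hA M' hpM' hM'⟩ :=
    Fermat.Agent.T1B.AuxUnit29.resChart_tN M' p hπ hE H hrange ht Hc.le₁ (self_mem_chart _)
      (tK_mem A hA M' hpM' hM')
  constructor
  · intro hreg
    refine Fermat.Agent.T1B.Brandt55.hcen_of_isIntegral_adjoin Hc (res1K M' p hπ hE H hrange) v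
      (O := ↥(AK A K)) (tB0 (A := A) M' p ht) (isIntegral_B0 M' p ht)
      (Fermat.Agent.T1B.Brandt55.hconst_of_algebraMap Hc (res1K M' p hπ hE H hrange) v
        (exists_resChart_const M' p hπ hE H hrange ht Hc.le₁)) ?_
    rw [htres]
    exact hreg
  · intro hcen
    have h := hcen (tB0 (A := A) M' p ht)
    rw [htres] at h
    exact h

include hL hpM' hM' in
/-- **(hDE\*) at the hub chart**, from the leaf `hReg-K` alone (`H0-HUB` discharged). -/
theorem hDE_hub_reg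
    (hReg : ∀ v : Place (Kap A) ↥(modularFunctionFieldFullC (Kap A) M'),
      RegK A hA M' hpM' hM' v ↔ HasCentre hN.chart (res1K M' p hπ hE H hrange) v) :
    ∃ c : ℤ, c ≠ 0 ∧ ∀ v : Place (Kap A) ↥(modularFunctionFieldFullC (Kap A) M'),
      RegK A hA M' hpM' hM' v → v.ord (DK A hA M' hpM' hM') ≠ 0 →
        v.ord (DK A hA M' hpM' hM') = c := by
  have hp2 : p ≠ 2 := by
    rintro rfl
    exact hpM' ((by decide : 2 ∣ 4).trans hM')
  obtain ⟨h0', g0', n, hcoe, hh, hinv, hO₂⟩ :=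
    Fermat.Agent.T1B.AuxUnit79.HubH0.h0_hub A p hp.out hp2 hM' hA ht hE hπ hL hN.chart.unif₂
  have hmem : Fermat.Agent.T1B.TestElt79.h0K (M' * p) K p
      (Fermat.Agent.T1B.TestElt79.four_mul_dvd p hM') ∈ B0 A p ht := hcoe ▸ h0'.2
  have hD : resChart (res1K M' p hπ hE H hrange) hN.chart.le₁ h0' = DK A hA M' hpM' hM' := by
    have h1 : h0' = ⟨_, hmem⟩ := Subtype.ext hcoe
    rw [h1]
    exact Fermat.Agent.T1B.AuxUnit29.resChart_h0K M' p hπ hE H hrange ht _ hmem hN.chart.le₁ _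
  exact hDE_hub A p hA M' hpM' hM' hπ hE H hrange ht hL hN hh hinv hO₂ hReg hD

variable [CharP (Kap A) p]

include hL in
/-- **`AuxData` at the hub** for the intrinsic node family, from `hReg-K`. -/
theorem auxData_hub
    (hReg : ∀ v : Place (Kap A) ↥(modularFunctionFieldFullC (Kap A) M'),
      RegK A hA M' hpM' hM' v ↔ HasCentre hN.chart (res1K M' p hπ hE H hrange) v) :
    Nonempty (AuxData (levelF A p M' hpM') (vK A p hA M' hpM' hM')) := by
  obtain ⟨c, hc, h⟩ := hDE_hub_reg A p hA M' hpM' hM' hπ hE H hrange ht hL hN hReg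
  exact ⟨auxDataNodeK A p hA M' hpM' hM' c hc h⟩

include hL in
/-- **(R2) `B_one` at the hub**, from `hReg-K`. -/
theorem BF_one_hub
    (hReg : ∀ v : Place (Kap A) ↥(modularFunctionFieldFullC (Kap A) M'),
      RegK A hA M' hpM' hM' v ↔ HasCentre hN.chart (res1K M' p hπ hE H hrange) v)
    (ℓ : Nat.Primes) (hℓN : ¬ (ℓ : ℕ) ∣ M' * p) :
    BF A p M' hpM' (vK A p hA M' hpM' hM') ℓ (fun _ => 1) =
      ((ℓ : ℕ) + 1 : ℤ) • (fun _ => 1 : NodeK A p hA M' hpM' hM' → ZMod p) :=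
  BF_one_nodeK A p hA M' hpM' hM'
    (hDE_hub_reg A p hA M' hpM' hM' hπ hE H hrange ht hL hN hReg) ℓ hℓN

include hL in
/-- **(R2) `ρ_T` at the hub**, from `hReg-K`. -/
theorem rhoF_T_hub
    (hReg : ∀ v : Place (Kap A) ↥(modularFunctionFieldFullC (Kap A) M'),
      RegK A hA M' hpM' hM' v ↔ HasCentre hN.chart (res1K M' p hπ hE H hrange) v)
    (ℓ : Nat.Primes) (hℓN : ¬ (ℓ : ℕ) ∣ M' * p) (x : Pic0 Kbar (FF (M' * p)))
    (hx : x ∈ Pic0.torsion Kbar (FF (M' * p)) p)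
    (hx' : heckeOperatorBar (M' * p) ℓ x ∈ Pic0.torsion Kbar (FF (M' * p)) p) :
    rhoF A p hA M' hpM' hM' (vK A p hA M' hpM' hM') ⟨heckeOperatorBar (M' * p) ℓ x, hx'⟩ =
      BF A p M' hpM' (vK A p hA M' hpM' hM') ℓ
        (rhoF A p hA M' hpM' hM' (vK A p hA M' hpM' hM') ⟨x, hx⟩) :=
  rhoF_T_nodeK A p hA M' hpM' hM'
    (hDE_hub_reg A p hA M' hpM' hM' hπ hE H hrange ht hL hN hReg) ℓ hℓN x hx hx'

/-! ### R2-FINAL: everything discharged except the model facts `hL`, `hN` -/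

section Final

/-- normalisability at the level `M' p` (helper95's `Gauss95.normalisable_coe`), `coeHom` form. -/
theorem H_R2 (f : Fbar (M' * p)) (hf : f ≠ 0) : Normalisable A (coeHom (M' * p) f) :=
  Fermat.Agent.T1B.Gauss95.normalisable_coe A (M' * p) f hf

include hA hpM' hM' in
/-- RESFIELD-ID at the level `M' p` (`Brandt14.hRF1_four`), `coeHom` form. -/
theorem hrange_R2 (x : ↥(gaussVal A (coeHom (M' * p)) (H_R2 A p M'))) :
    gaussResV A (coeHom (M' * p)) (H_R2 A p M') x ∈ modularFunctionFieldFullC (Kap A) M' :=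
  hRF1_four A hA M' hpM' hM' (gaussValToSub A (coeHom (M' * p)) (H_R2 A p M') x)

include hL hN in
/-- **R2-FINAL, (hDE\*)**: at the hub chart of a nodal model (`hL`) whose chart `0` is nodal (`hN`),
the auxiliary function `D̄` has the same nonzero order at all its zeros and poles on the `t̄`-finite
part. -/
theorem hDE_R2 :
    ∃ c : ℤ, c ≠ 0 ∧ ∀ v : Place (Kap A) ↥(modularFunctionFieldFullC (Kap A) M'),
      RegK A hA M' hpM' hM' v → v.ord (DK A hA M' hpM' hM') ≠ 0 →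
        v.ord (DK A hA M' hpM' hM') = c :=
  hDE_hub_reg A p hA M' hpM' hM' hπ hE (H_R2 A p M') (hrange_R2 A p hA M' hpM' hM') ht hL hN
    (regK_iff_hasCentre A p hA M' hpM' hM' hπ hE (H_R2 A p M') (hrange_R2 A p hA M' hpM' hM') ht
      hN.chart)

include hL hN in
/-- **R2-FINAL, `AuxData`** for the intrinsic node family `vK : NodeK → Place κ̄ k₁`. -/
theorem auxData_R2 : Nonempty (AuxData (levelF A p M' hpM') (vK A p hA M' hpM' hM')) := by
  obtain ⟨c, hc, h⟩ := hDE_R2 A p hA M' hpM' hM' hπ hE ht hL hN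
  exact ⟨auxDataNodeK A p hA M' hpM' hM' c hc h⟩

include hL hN in
/-- **R2-FINAL, `B_one`**: the field `B_one` of `Local66.Assembly.LocalGeom` with
`R := NodeK → ZMod p`, `B := BF (vK)`, `one := fun _ => 1`. -/
theorem BF_one_R2 (ℓ : Nat.Primes) (hℓN : ¬ (ℓ : ℕ) ∣ M' * p) :
    BF A p M' hpM' (vK A p hA M' hpM' hM') ℓ (fun _ => 1) =
      ((ℓ : ℕ) + 1 : ℤ) • (fun _ => 1 : NodeK A p hA M' hpM' hM' → ZMod p) :=
  BF_one_nodeK A p hA M' hpM' hM' (hDE_R2 A p hA M' hpM' hM' hπ hE ht hL hN) ℓ hℓN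

include hL hN in
/-- **R2-FINAL, `ρ_T`**: the field `ρ_T` of `Local66.Assembly.LocalGeom` with
`ρ := rhoF (vK)`, `B := BF (vK)`. -/
theorem rhoF_T_R2 (ℓ : Nat.Primes) (hℓN : ¬ (ℓ : ℕ) ∣ M' * p) (x : Pic0 Kbar (FF (M' * p)))
    (hx : x ∈ Pic0.torsion Kbar (FF (M' * p)) p)
    (hx' : heckeOperatorBar (M' * p) ℓ x ∈ Pic0.torsion Kbar (FF (M' * p)) p) :
    rhoF A p hA M' hpM' hM' (vK A p hA M' hpM' hM') ⟨heckeOperatorBar (M' * p) ℓ x, hx'⟩ =
      BF A p M' hpM' (vK A p hA M' hpM' hM') ℓ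
        (rhoF A p hA M' hpM' hM' (vK A p hA M' hpM' hM') ⟨x, hx⟩) :=
  rhoF_T_nodeK A p hA M' hpM' hM' (hDE_R2 A p hA M' hpM' hM' hπ hE ht hL hN) ℓ hℓN x hx hx'

end Final

end Hub

end Fermat.Agent.T1B.Brandt14
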