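/-
Programme T1B (row 38 / S44), cell R2/BRANDT, R2-FINAL (helper14), part 2: **THE INTRINSIC NODE
FAMILY `NodeK` IS THE FAMILY OF NODE PLACES OF THE HUB CHART**, and it is nonempty as soon as the hub
chart has one node.  Context of `Brandt14/R2Hub` (`Unif77/Concrete` vocabulary; `H := H_R2`,
`hrange := hrange_R2` chosen inside).

* `hP_R2`  : `(RegK v ∧ v.ord D̄ ≠ 0) ↔ Brandt96.TwoBranch hN.chart (res1K ..) v`
             (the hypothesis `hP` of `Brandt55/Intrinsic`: `idealP`, `idealP_HP`, `exists_idealP_eq`, …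
             for the intrinsic index, i.e. the families of R1 on `NodeK`);
* `nonempty_nodeK_R2` : `Nonempty NodeK` from ONE two-branch maximal ideal of the hub chart
             (`Brandt55.nonempty_P`; `hnode` e.g. from `Brandt90.exists_node_chart0_of_numData`
             through `NodeNF37.ThickOne.off_iff_offBranch`).
-/
import Mathlib
import Fermat.Agent.T1B.Brandt14.R2Hub

set_option autoImplicit false
set_option linter.unusedSectionVars false
set_option linter.unusedVariables false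
set_option linter.style.haveILetI false

noncomputable section

open HahnSeries ModularCurve IntermediateField AlgebraicCurve

namespace Fermat.Agent.T1B.Brandt14

open Fermat.Agent.X0 Fermat.Agent.ES.HECKE
open Fermat.Agent.RED.Interface4 Fermat.Agent.RED.PUR.GaussGen8
open Fermat.Agent.RED.PUR.ChartGeneric22
open Fermat.Agent.RED.DESC.PlaceExtend27
open Fermat.Agent.RED.BASE.EtaQuot12
open Fermat.Agent.ES.N34.ModelDefs9 Fermat.Agent.ES.N34.NumData13
open Fermat.Agent.T1B.Hecke3 Fermat.Agent.T1B.GaussW77 Fermat.Agent.T1B.Hol80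
open Fermat.Agent.T1B.Brandt96 Fermat.Agent.T1B.Unif77 Fermat.Agent.T1B.Brandt57
open Fermat.Agent.T1B.NodeNF37.UnifOrd
open scoped Fermat.Agent.T1.Assembly41.FastInst

attribute [local instance 5000] SubalgebraClass.toAlgebra

variable (A : ValuationSubring Qbar) (p : ℕ) [hp : Fact p.Prime] (hA : A.LiesOverPrime p)
  (M' : ℕ) [NeZero M'] [NeZero (M' * p)] (hpM' : ¬ p ∣ M') (hM' : 4 ∣ M')
variable {K : IntermediateField ℚ Qbar} {π : ↥(AK A K)}
variable (hπ : IsUnif (AK A K) π) (hE : FK (M' * p) K ≤ fracField (AK A K))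
  (ht : tq (↥K) 4 8 ∈ FK M' K)
variable (hL : NodalNumData ↥(AK A K) ↥K ↥(FK (M' * p) K) π (tN p ht) (B0 A p ht) (B1 A p ht)
  (O1 M' p hπ hE) (O2 M' p hπ hE))
variable {Kth : ℕ} (hN : NodalChartHyp (algebraMap ↥(AK A K) ↥(B0 A p ht) π) (O1 M' p hπ hE)
  (O2 M' p hπ hE) Kth)
variable [CharP (Kap A) p]

include hL in
/-- **`hP`**: the intrinsic node family is the family of node places of the hub chart. -/
theorem hP_R2 (v : Place (Kap A) ↥(modularFunctionFieldFullC (Kap A) M')) :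
    (RegK A hA M' hpM' hM' v ∧ v.ord (DK A hA M' hpM' hM') ≠ 0) ↔
      TwoBranch hN.chart
        (res1K M' p hπ hE (H_R2 A p M') (hrange_R2 A p hA M' hpM' hM')) v := by
  haveI := hL.noeth0
  letI : Algebra (ZMod p) (Kap A) := Fermat.Agent.T1B.Brandt55.algebraZModKap A hp.out hA
  haveI : Algebra.IsAlgebraic (ZMod p) (Kap A) :=
    Fermat.Agent.T1B.Brandt55.isAlgebraic_zmod_kap55 A hp.out
  have hp2 : p ≠ 2 := by
    rintro rfl
    exact hpM' ((by decide : 2 ∣ 4).trans hM')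
  obtain ⟨h0', g0', n, hcoe, hh, hinv, hO₂⟩ :=
    Fermat.Agent.T1B.AuxUnit79.HubH0.h0_hub A p hp.out hp2 hM' hA ht hE hπ hL hN.chart.unif₂
  have hmem : Fermat.Agent.T1B.TestElt79.h0K (M' * p) K p
      (Fermat.Agent.T1B.TestElt79.four_mul_dvd p hM') ∈ B0 A p ht := hcoe ▸ h0'.2
  have hD : resChart (res1K M' p hπ hE (H_R2 A p M') (hrange_R2 A p hA M' hpM' hM'))
      hN.chart.le₁ h0' = DK A hA M' hpM' hM' := by
    have h1 : h0' = ⟨_, hmem⟩ := Subtype.ext hcoe
    rw [h1]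
    exact Fermat.Agent.T1B.AuxUnit29.resChart_h0K M' p hπ hE (H_R2 A p M')
      (hrange_R2 A p hA M' hpM' hM') ht _ hmem hN.chart.le₁ _
  exact Fermat.Agent.T1B.Brandt55.twoBranch_iff_of_reg hN
    (res1K M' p hπ hE (H_R2 A p M') (hrange_R2 A p hA M' hpM' hM'))
    (res1K_eq_zero_of_not_isUnit M' p hπ hE (H_R2 A p M') (hrange_R2 A p hA M' hpM' hM')) p
    (Fermat.Agent.T1B.Brandt55.deg_eq_one_kap A M' hp.out hA hpM')
    (frac_B0 M' p hπ hE ht hL)
    (adjoin_range_res1K M' p hπ hE (H_R2 A p M') (hrange_R2 A p hA M' hpM' hM')) hh hinv hO₂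
    (regK_iff_hasCentre A p hA M' hpM' hM' hπ hE (H_R2 A p M') (hrange_R2 A p hA M' hpM' hM') ht
      hN.chart) hD v

include hL hN in
/-- **`Nonempty NodeK`** from one two-branch maximal ideal of the hub chart. -/
theorem nonempty_nodeK_R2
    (hnode : ∃ 𝔫 : Ideal ↥(B0 A p ht), 𝔫.IsMaximal ∧
      ¬ Off (algebraMap ↥(AK A K) ↥(B0 A p ht) π) (O1 M' p hπ hE) 𝔫 ∧
      ¬ Off (algebraMap ↥(AK A K) ↥(B0 A p ht) π) (O2 M' p hπ hE) 𝔫) :
    Nonempty (NodeK A p hA M' hpM' hM') := by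
  letI : Algebra (ZMod p) (Kap A) := Fermat.Agent.T1B.Brandt55.algebraZModKap A hp.out hA
  haveI : Algebra.IsAlgebraic (ZMod p) (Kap A) :=
    Fermat.Agent.T1B.Brandt55.isAlgebraic_zmod_kap55 A hp.out
  exact Fermat.Agent.T1B.Brandt55.nonempty_P hN
    (res1K M' p hπ hE (H_R2 A p M') (hrange_R2 A p hA M' hpM' hM'))
    (res1K_eq_zero_of_not_isUnit M' p hπ hE (H_R2 A p M') (hrange_R2 A p hA M' hpM' hM'))
    (res1K_ne_zero_of_isUnit M' p hπ hE (H_R2 A p M') (hrange_R2 A p hA M' hpM' hM'))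
    (Fermat.Agent.T1B.Brandt55.isGen_jC_kap A M' hp.out hA hpM')
    (Fermat.Agent.T1B.Brandt55.isSeparable_jC_kap A M' hp.out hA hpM')
    (hP_R2 A p hA M' hpM' hM' hπ hE ht hL hN) p hnode

end Fermat.Agent.T1B.Brandt14
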